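import Fermat.Agent.S37.Red.H940.MainStatement
import Fermat.Agent.S37.Red.ModG
import Fermat.Agent.S37.Red.H217.Sat
import Fermat.Agent.S37.H568.ValueGroup
import Fermat.Agent.S37.H628.E2Degree
import Fermat.Agent.S37.H448.AscentMod
import Fermat.Agent.S37.H448.Gen
import Fermat.Agent.S18.H739.ModFinite
import Fermat.Agent.S37.Red.H759.PassageDatum

/-!
# S37 / node_rim — assembly through the `Red` route, from (H3) alone (helper579)

NODE [RIM] (`ReductionInputsModL A N`, the place reduction map with the Prelude's (i), (ii) and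
PGI) for every prime `ℓ ∤ N` and every valuation subring `A ⊆ ℚ̄` over `ℓ`, from the ONE remaining
input: normality (H3) of the special fibre of the `j`-line model.

* `node_rim_of_lift` : from `LiftFin A N`, `LiftInf A N` ((H3) over `A`, `Core.IntElt` language =
  the conclusions of `H448.lift_fin_of_base_liesOver` / `lift_inf_of_base_liesOver`);
* `node_rim_of_base` : from (H3) for the functions defined over `𝔽_ℓ` (hypotheses `hbase` of H448);
* `node_rim_of_ring` : from (H3) for a model over a base ring `R₀` (e.g. `ℤ_(ℓ)`), in the shape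
  `h0` of `H448.base_fin_of_ring` (+ the analogous shape at infinity).

Chain (all landed, no further hypothesis): `Red.H940.mainStatement` (RED-MAIN, helper940/160/399),
`Red.modG` + `node_rim_of_modG` (helper40), `H568.valueGroupHyp_modular`, `H628.good_H1` (H1),
`Red.H217.good_of` (H4' from H1), `H448` (ascent `𝔽_ℓ → k`, CoreData, PGI), `H700.pgi`.
New here: the bridge between the `q`-expansion language of (H3) and `Red.Datum.chart/chartk`
(`isIntegralElem_of_mem_chartk`, `mem_chart_of_isIntegralElem`, `lift_fin_modGj`,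
`lift_inf_modGj`, `good_modGj`).
-/

set_option autoImplicit false
set_option synthInstance.maxHeartbeats 400000
set_option linter.unusedSectionVars false

noncomputable section

namespace Fermat.Agent.S37.H579.RimBase

open ModularCurve AlgebraicCurve HahnSeries IsLocalRing Polynomial
open Fermat.Agent.S37.Red Fermat.Agent.S37.Core Fermat.Agent.S37.H448

/-! ### generic: integrality along ring homomorphisms -/

section Generic

variable {R R' S : Type*} [CommRing R] [CommRing R'] [CommRing S]

/-- integrality with respect to `h` lifts along a surjection `f` onto the source of `h` -/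
theorem isIntegralElem_comp_of_surjective (f : R →+* R') (hf : Function.Surjective f)
    (h : R' →+* S) {x : S} (hx : h.IsIntegralElem x) : (h.comp f).IsIntegralElem x := by
  obtain ⟨p, hp, hpx⟩ := hx
  have hl : p ∈ Polynomial.lifts f :=
    (Polynomial.lifts_iff_coeff_lifts p).mpr fun i => by
      obtain ⟨r, hr⟩ := hf (p.coeff i)
      exact ⟨r, hr⟩
  obtain ⟨q, hq, -, hqm⟩ := Polynomial.lifts_and_natDegree_eq_and_monic hl hp
  refine ⟨q, hqm, ?_⟩
  rw [← Polynomial.eval₂_map, hq, hpx]

/-- integrality over `k[s] ⊆ F`, transported along `ι : F → L`, in `IsIntegralElem` form -/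
theorem isIntegralElem_of_isIntegral_adjoin {k F L : Type*} [Field k] [Field F] [CommRing L]
    [Algebra k F] (ι : F →+* L) (e : k[X] →+* L) {s c : F}
    (he_C : ∀ a, e (Polynomial.C a) = ι (algebraMap k F a)) (he_X : e Polynomial.X = ι s)
    (hc : IsIntegral (Algebra.adjoin k ({s} : Set F)) c) : e.IsIntegralElem (ι c) := by
  let sB : Algebra.adjoin k ({s} : Set F) := ⟨s, Algebra.subset_adjoin rfl⟩
  let f : k[X] →+* Algebra.adjoin k ({s} : Set F) := (Polynomial.aeval sB).toRingHom
  have hf : Function.Surjective f := by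
    intro b
    have hb : (b : F) ∈ (Polynomial.aeval (R := k) s).range := by
      rw [← Algebra.adjoin_singleton_eq_range_aeval]
      exact b.2
    obtain ⟨p, hp⟩ := hb
    refine ⟨p, Subtype.ext ?_⟩
    show ((Polynomial.aeval sB p : Algebra.adjoin k ({s} : Set F)) : F) = b
    rw [Polynomial.aeval_subalgebra_coe]
    exact hp
  have h1 : (ι.comp (algebraMap (Algebra.adjoin k ({s} : Set F)) F)).IsIntegralElem (ι c) :=
    RingHom.IsIntegralElem.map hc ι
  have h2 := isIntegralElem_comp_of_surjective f hf _ h1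
  have heq : (ι.comp (algebraMap (Algebra.adjoin k ({s} : Set F)) F)).comp f = e := by
    apply Polynomial.ringHom_ext
    · intro a
      rw [he_C]
      show ι ((Polynomial.aeval sB (Polynomial.C a) : Algebra.adjoin k ({s} : Set F)) : F) = _
      rw [Polynomial.aeval_C]
      rfl
    · rw [he_X]
      show ι ((Polynomial.aeval sB Polynomial.X : Algebra.adjoin k ({s} : Set F)) : F) = _
      rw [Polynomial.aeval_X]
  rw [heq] at h2
  exact h2

/-- integrality w.r.t. a ring hom with range in a subring `T` gives integrality over `T` -/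
theorem isIntegral_of_isIntegralElem_range_le {R L : Type*} [CommRing R] [CommRing L]
    (e : R →+* L) (T : Subring L) (h : ∀ r, e r ∈ T) {x : L} (hx : e.IsIntegralElem x) :
    IsIntegral T x := by
  have h1 : (T.subtype.comp (e.codRestrict T h)).IsIntegralElem x := by
    have : T.subtype.comp (e.codRestrict T h) = e := RingHom.ext fun r => rfl
    rw [this]
    exact hx
  exact RingHom.IsIntegralElem.of_comp h1

/-- range of an evaluation `R[X] → L` lies in every subring containing the constants and the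
point -/
theorem eval₂RingHom_mem {R L : Type*} [CommRing R] [CommRing L] (φ : R →+* L) (u : L)
    (T : Subring L) (hC : ∀ a, φ a ∈ T) (hu : u ∈ T) (p : R[X]) :
    Polynomial.eval₂RingHom φ u p ∈ T := by
  show Polynomial.eval₂ φ u p ∈ T
  rw [Polynomial.eval₂_eq_sum_range]
  exact sum_mem fun i _ => mul_mem (hC _) (pow_mem hu i)

end Generic

/-! ### bridge `q`-expansion language ↔ `Red.Datum` language -/

section Bridge

variable {N : ℕ} {A : ValuationSubring Qb} (G : Datum A (residue A) (FN N) (FNk A N))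

/-- `c ∈ G.chartk s` in `q`-expansion language -/
theorem isIntegralElem_of_mem_chartk {s c : FNk A N} (hc : c ∈ G.chartk s) :
    (evalSer (kA A) (s : LaurentSeries (kA A))).IsIntegralElem (c : LaurentSeries (kA A)) := by
  have hc' : IsIntegral (Algebra.adjoin (kA A) {s}) c := hc
  refine isIntegralElem_of_isIntegral_adjoin (algebraMap (FNk A N) (LaurentSeries (kA A)))
    (evalSer (kA A) (s : LaurentSeries (kA A))) ?_ ?_ hc'
  · intro a
    rw [evalSer_C]
    show HahnSeries.C a = algebraMap (kA A) (LaurentSeries (kA A)) a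
    rw [algebraMap_laurentSeries_eq_single]
    rfl
  · rw [evalSer_X]
    rfl

/-- `b ∈ G.chart t` from `q`-expansion language: `y ∈ A((q))` integral over `A[u]`, where
`u ∈ A((q))` is the `q`-expansion of `t`. -/
theorem mem_chart_of_isIntegralElem {t b : FN N} (u y : LaurentSeries A)
    (hu : coeffMap A.subtype u = (t : LaurentSeries Qb))
    (hy : coeffMap A.subtype y = (b : LaurentSeries Qb))
    (hint : (evalSeries A u).IsIntegralElem y) : b ∈ G.chart t := by
  show IsIntegral (G.polyRing t) b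
  refine Fermat.Agent.S37.Red.H759.isIntegral_of_map_subring
    (algebraMap (FN N) (LaurentSeries Qb)) (algebraMap (FN N) (LaurentSeries Qb)).injective _ ?_
  have h1 : ((coeffMap A.subtype).comp (evalSeries A u)).IsIntegralElem
      (coeffMap A.subtype y) := RingHom.IsIntegralElem.map hint _
  have heq : (coeffMap A.subtype).comp (evalSeries A u) =
      Polynomial.eval₂RingHom ((coeffMap A.subtype).comp (HahnSeries.C : A →+* LaurentSeries A))
        (coeffMap A.subtype u) := by
    apply Polynomial.ringHom_ext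
    · intro a
      simp [evalSeries]
    · simp [evalSeries]
  rw [heq, hy] at h1
  refine isIntegral_of_isIntegralElem_range_le _ _ (fun p => ?_) h1
  refine eval₂RingHom_mem _ _ _ (fun a => ?_) ?_ p
  · refine Subring.mem_map.mpr ⟨algebraMap Qb (FN N) (a : Qb), ?_, ?_⟩
    · exact (le_sup_left : G.constRing ≤ G.polyRing t)
        (Subring.mem_map.mpr ⟨(a : Qb), a.2, rfl⟩)
    · show ((algebraMap Qb (FN N) (a : Qb) : FN N) : LaurentSeries Qb) = _
      rw [RingHom.comp_apply, coeffMap_C']
      show algebraMap Qb (LaurentSeries Qb) (a : Qb) = _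
      rw [algebraMap_laurentSeries_eq_single]
      rfl
  · rw [hu]
    exact Subring.mem_map.mpr ⟨t, (le_sup_right : Subring.closure {t} ≤ G.polyRing t)
      (Subring.subset_closure rfl), rfl⟩

end Bridge

/-! ### (H3) in `IntElt` language ⟹ `Good` ⟹ NODE [RIM] -/

section Lift

variable (A : ValuationSubring Qb) (N : ℕ)

/-- **(H3), finite chart, `IntElt` form** (conclusion of `H448.lift_fin_of_base_liesOver`):
every element of `F_k` integral over `k[j̄]` is the reduction of an `A`-integral `q`-series of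
`F̄_N` integral over `A[j]`. -/
def LiftFin : Prop :=
  ∀ z : FNk A N, (evalSer (kA A) (jqModC (kA A))).IsIntegralElem (z : LaurentSeries (kA A)) →
    ∃ c : IntElt A N, c.IsFin ∧ c.sp = z

/-- **(H3), chart at infinity, `IntElt` form** (conclusion of
`H448.lift_inf_of_base_liesOver`). -/
def LiftInf : Prop :=
  ∀ z : FNk A N, (evalSer (kA A) (jqModC (kA A))⁻¹).IsIntegralElem (z : LaurentSeries (kA A)) →
    ∃ c : IntElt A N, c.IsInf ∧ c.sp = z

variable {A N}

theorem coe_x_modGj (hVG : ModVG N A) (htr : Transcendental (kA A) (jk N A)) :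
    (((modGj hVG htr).x : FN N) : LaurentSeries Qb) = jqModC Qb :=
  coeffMap_jqModC A.subtype

theorem xk_modGj (hVG : ModVG N A) (htr : Transcendental (kA A) (jk N A)) :
    (modGj hVG htr).xk = jk N A :=
  modρ_ofSeries hVG (jqModC A) (coeffMap_jqModC_mem_bar N A) (coeffMap_jqModC_mem_fullC N A)

theorem coe_xk_modGj (hVG : ModVG N A) (htr : Transcendental (kA A) (jk N A)) :
    (((modGj hVG htr).xk : FNk A N) : LaurentSeries (kA A)) = jqModC (kA A) := by
  rw [xk_modGj]
  exact coeffMap_jqModC (residue A)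

/-- field `lift_fin` of `Good` for the modular datum with coordinate `j` -/
theorem lift_fin_modGj (hVG : ModVG N A) (htr : Transcendental (kA A) (jk N A))
    (h : LiftFin A N) :
    ∀ c ∈ (modGj hVG htr).chartk (modGj hVG htr).xk,
      ∃ b ∈ (modGj hVG htr).chart (modGj hVG htr).x,
        ∃ hb : b ∈ (modGj hVG htr).O, (modGj hVG htr).ρ ⟨b, hb⟩ = c := by
  intro c hc
  have h1 := isIntegralElem_of_mem_chartk (modGj hVG htr) hc
  rw [coe_xk_modGj] at h1
  obtain ⟨c', hfin, hsp⟩ := h c h1
  obtain ⟨hO, hρ⟩ := modG_link hVG c'.y c'.mem c'.memk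
  refine ⟨c'.gen, ?_, hO, ?_⟩
  · exact mem_chart_of_isIntegralElem (modGj hVG htr) (jqModC A) c'.y rfl rfl hfin
  · exact hρ.trans hsp

/-- field `lift_inf` of `Good` for the modular datum with coordinate `j` -/
theorem lift_inf_modGj (hVG : ModVG N A) (htr : Transcendental (kA A) (jk N A))
    (h : LiftInf A N) :
    ∀ c ∈ (modGj hVG htr).chartk (modGj hVG htr).xk⁻¹,
      ∃ b ∈ (modGj hVG htr).chart (modGj hVG htr).x⁻¹,
        ∃ hb : b ∈ (modGj hVG htr).O, (modGj hVG htr).ρ ⟨b, hb⟩ = c := by
  intro c hc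
  have h1 := isIntegralElem_of_mem_chartk (modGj hVG htr) hc
  have h2 : ((((modGj hVG htr).xk)⁻¹ : FNk A N) : LaurentSeries (kA A)) =
      (jqModC (kA A))⁻¹ := by
    rw [IntermediateField.coe_inv, coe_xk_modGj]
  rw [h2] at h1
  obtain ⟨c', ⟨u, hu, hint⟩, hsp⟩ := h c h1
  obtain ⟨hO, hρ⟩ := modG_link hVG c'.y c'.mem c'.memk
  refine ⟨c'.gen, ?_, hO, ?_⟩
  · refine mem_chart_of_isIntegralElem (modGj hVG htr) u c'.y ?_ rfl hint
    rw [IntermediateField.coe_inv, coe_x_modGj]
    have h3 := congrArg (coeffMap A.subtype) hu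
    rw [map_mul, map_one, coeffMap_jqModC] at h3
    exact eq_inv_of_mul_eq_one_left h3
  · exact hρ.trans hsp

end Lift

section Node

variable (N : ℕ) [NeZero N] {ℓ : ℕ} (hℓ : ℓ.Prime) (hℓN : ¬ ℓ ∣ N)
  (A : ValuationSubring Qb) (hA : A.LiesOverPrime ℓ)

include hℓ hℓN hA

/-- the value-group hypothesis for the modular function fields -/
theorem modVG : ModVG N A :=
  Fermat.Agent.S37.H568.valueGroupHyp_modular (coreData_residueField N hℓ hℓN A hA)

omit [NeZero N] hℓ hℓN hA in
/-- `j̄` is transcendental over `k` -/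
theorem transcendental_jk : Transcendental (kA A) (jk N A) := by
  have h := Fermat.Agent.S18.H739.transcendental_jC (kA A) N
  have heq : jk N A = ⟨jqModC (kA A), jqModC_mem_full (kA A) N⟩ := by
    apply Subtype.ext
    exact coeffMap_jqModC (residue A)
  rw [heq]
  exact h

/-- **`Good` for the modular datum with coordinate `j`, from (H3).** -/
theorem good_modGj (hfin : LiftFin A N) (hinf : LiftInf A N) :
    (modGj (modVG N hℓ hℓN A hA) (transcendental_jk N A)).Good := by
  obtain ⟨h1, h2, h3, h4⟩ := Fermat.Agent.S37.H628.good_H1 N hℓ hℓN A hA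
    (modGj (modVG N hℓ hℓN A hA) (transcendental_jk N A))
    (coe_x_modGj _ _) (coe_xk_modGj _ _)
  exact Fermat.Agent.S37.Red.H217.good_of _ h1 h2 h3 h4
    (lift_fin_modGj _ _ hfin) (lift_inf_modGj _ _ hinf)

/-- **NODE [RIM] from (H3) in `IntElt` form** (`ℓ ∤ N`, any `ℓ`). -/
theorem node_rim_of_lift (hfin : LiftFin A N) (hinf : LiftInf A N) :
    ReductionInputsModL A N :=
  node_rim_of_modG Fermat.Agent.S37.Red.H940.mainStatement (modVG N hℓ hℓN A hA) (jqModC A)
    (coeffMap_jqModC_mem_bar N A) (coeffMap_jqModC_mem_fullC N A) (transcendental_jk N A)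
    (good_modGj N hℓ hℓN A hA hfin hinf)
    (principalGeneratedByIntegral N hℓ hℓN A hA)

end Node

section NodeBase

variable (N : ℕ) [NeZero N] {ℓ : ℕ} [hF : Fact ℓ.Prime] (hℓN : ¬ ℓ ∣ N)
  (A : ValuationSubring Qb) (hA : A.LiesOverPrime ℓ)

include hF hℓN hA

/-- **NODE [RIM] from (H3) over `𝔽_ℓ`** (the hypotheses `hbase` of
`H448.lift_fin_of_base_liesOver` / `lift_inf_of_base_liesOver`): normality of the special fibre
is needed only for the functions defined over `𝔽_ℓ`. -/
theorem node_rim_of_base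
    (hbfin : ∀ (φ : ZMod ℓ →+* kA A) (w : LaurentSeries (ZMod ℓ)),
      w ∈ modularFunctionFieldFullC (ZMod ℓ) N →
      (evalSer (ZMod ℓ) (jqModC (ZMod ℓ))).IsIntegralElem w →
      ∃ c : IntElt A N, c.IsFin ∧ coeffMap (residue A) c.y = coeffMap φ w)
    (hbinf : ∀ (φ : ZMod ℓ →+* kA A) (w : LaurentSeries (ZMod ℓ)),
      w ∈ modularFunctionFieldFullC (ZMod ℓ) N →
      (evalSer (ZMod ℓ) (jqModC (ZMod ℓ))⁻¹).IsIntegralElem w →
      ∃ c : IntElt A N, c.IsInf ∧ coeffMap (residue A) c.y = coeffMap φ w) :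
    ReductionInputsModL A N :=
  node_rim_of_lift N hF.out hℓN A hA
    (fun z hz => lift_fin_of_base_liesOver A hA hbfin z hz)
    (fun z hz => lift_inf_of_base_liesOver A hA hbinf z hz)

/-- **NODE [RIM] from (H3) for a model over a base ring `R₀`** (e.g. `R₀ = ℤ_(ℓ)`):
* `h0fin` : every `w ∈ F_{N,𝔽_ℓ}` integral over `𝔽_ℓ[j̄]` is the reduction of a series
  `y₀ ∈ R₀((q))`, integral over `R₀[j]`, whose image in `ℚ̄((q))` lies in `F̄_N`;
* `h0inf` : the same with `j⁻¹` (`u₀ ∈ R₀((q))` the inverse of `j`). -/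
theorem node_rim_of_ring {R₀ : Type*} [CommRing R₀] (ψ : R₀ →+* A) (ρ₀ : R₀ →+* ZMod ℓ)
    (φ₀ : ZMod ℓ →+* kA A) (hcomp : (residue A).comp ψ = φ₀.comp ρ₀)
    (h0fin : ∀ w : LaurentSeries (ZMod ℓ), w ∈ modularFunctionFieldFullC (ZMod ℓ) N →
      (evalSer (ZMod ℓ) (jqModC (ZMod ℓ))).IsIntegralElem w →
      ∃ y₀ : LaurentSeries R₀,
        coeffMap (A.subtype.comp ψ) y₀ ∈ modularFunctionFieldBar N ∧
        (evalSer R₀ (jqModC R₀)).IsIntegralElem y₀ ∧ coeffMap ρ₀ y₀ = w)
    (h0inf : ∀ w : LaurentSeries (ZMod ℓ), w ∈ modularFunctionFieldFullC (ZMod ℓ) N →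
      (evalSer (ZMod ℓ) (jqModC (ZMod ℓ))⁻¹).IsIntegralElem w →
      ∃ u₀ y₀ : LaurentSeries R₀, u₀ * jqModC R₀ = 1 ∧
        coeffMap (A.subtype.comp ψ) y₀ ∈ modularFunctionFieldBar N ∧
        (evalSer R₀ u₀).IsIntegralElem y₀ ∧ coeffMap ρ₀ y₀ = w) :
    ReductionInputsModL A N := by
  have hφ : ∀ φ : ZMod ℓ →+* kA A, φ = φ₀ := fun φ => Subsingleton.elim _ _
  have hmemk := reduction_mem_fullC N hF.out hℓN A hA
  refine node_rim_of_base N hℓN A hA ?_ ?_
  · intro φ w hw hwi
    rw [hφ φ]
    exact base_fin_of_ring A ψ ρ₀ φ₀ hcomp hmemk h0fin w hw hwi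
  · intro φ w hw hwi
    rw [hφ φ]
    obtain ⟨u₀, y₀, hu, hy1, hy2, hy3⟩ := h0inf w hw hwi
    have hmem : coeffMap A.subtype (coeffMap ψ y₀) ∈ modularFunctionFieldBar N := by
      rw [coeffMap_coeffMap]
      exact hy1
    refine ⟨⟨coeffMap ψ y₀, hmem, hmemk _ hmem⟩, ⟨coeffMap ψ u₀, ?_, ?_⟩, ?_⟩
    · have h1 := congrArg (coeffMap ψ) hu
      rw [map_mul, map_one, coeffMap_jqModC] at h1
      exact h1
    · exact isIntegralElem_coeffMap ψ hy2
    · show coeffMap (residue A) (coeffMap ψ y₀) = coeffMap φ₀ w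
      rw [coeffMap_coeffMap, hcomp, ← coeffMap_coeffMap, hy3]

end NodeBase

end Fermat.Agent.S37.H579.RimBase
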