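import Fermat.Agent.S37.H579.ArgMain

/-!
# ARG (helper579, row S37): adapters for the hypotheses of `Chart`

* `ker_fg_of_finiteType` : kernels of `A`-points of a finite type `A`-algebra are finitely
  generated;
* `isAlgebraic_quotient_of_isIntegral` : if `B` (a domain) is integral over `A[x]`, then for every
  nonzero prime `𝔭` of `B` with `𝔭 ∩ A = 0` the quotient `B/𝔭` is algebraic over `A`;
* `Chart.mk'` : `Chart A B` from: injectivity, content decomposition, primality of `𝔪B`, finite
  type, integrality over `A[x]`.
-/

set_option linter.unusedSectionVars false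
set_option linter.style.haveILetI false

namespace Fermat.Agent.S37.H579.Arg

open IsLocalRing

section Adapt

variable {A : Type*} [CommRing A] [IsDomain A] [ValuationRing A]
variable {B : Type*} [CommRing B] [Algebra A B]

/-- The kernel of an `A`-point of a finite type `A`-algebra is finitely generated. -/
theorem ker_fg_of_finiteType [hft : Algebra.FiniteType A B] (φ : B →ₐ[A] A) :
    (RingHom.ker φ).FG := by
  obtain ⟨s, hs⟩ := hft.out
  classical
  refine ⟨s.image (fun b => b - algebraMap A B (φ b)), ?_⟩
  apply le_antisymm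
  · rw [Ideal.span_le]
    intro z hz
    rw [Finset.coe_image] at hz
    obtain ⟨b, -, rfl⟩ := hz
    exact RingHom.mem_ker.2 (sub_algebraMap_mem_ker φ b)
  · intro f hf
    have key : ∀ b : B, b - algebraMap A B (φ b) ∈
        Ideal.span ((s.image (fun b => b - algebraMap A B (φ b)) : Finset B) : Set B) := by
      intro b
      have hb : b ∈ Algebra.adjoin A (s : Set B) := by rw [hs]; exact Algebra.mem_top
      induction hb using Algebra.adjoin_induction with
      | mem b hb =>
        apply Ideal.subset_span
        rw [Finset.coe_image]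
        exact ⟨b, hb, rfl⟩
      | algebraMap a =>
        rw [AlgHom.commutes, Algebra.algebraMap_self_apply, sub_self]
        exact Ideal.zero_mem _
      | add u v _ _ hu hv =>
        have : u + v - algebraMap A B (φ (u + v)) =
            (u - algebraMap A B (φ u)) + (v - algebraMap A B (φ v)) := by
          rw [map_add, map_add]; ring
        rw [this]
        exact Ideal.add_mem _ hu hv
      | mul u v _ _ hu hv =>
        have : u * v - algebraMap A B (φ (u * v)) =
            u * (v - algebraMap A B (φ v)) + algebraMap A B (φ v) * (u - algebraMap A B (φ u)) := by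
          rw [map_mul, map_mul]; ring
        rw [this]
        exact Ideal.add_mem _ (Ideal.mul_mem_left _ _ hv) (Ideal.mul_mem_left _ _ hu)
    have := key f
    rw [RingHom.mem_ker.1 hf, map_zero, sub_zero] at this
    exact this

/-- If the domain `B` is integral over `A[x]`, then for every nonzero prime `𝔭` of `B` the
quotient `B ⧸ 𝔭` is algebraic over `A` (the generic fibre has dimension `≤ 1`). -/
theorem isAlgebraic_quotient_of_isIntegral [IsDomain B] (x : B)
    (hint : ∀ b : B, IsIntegral (Algebra.adjoin A {x}) b)
    (𝔭 : Ideal B) [h𝔭 : 𝔭.IsPrime] (h0 : 𝔭 ≠ ⊥) :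
    Algebra.IsAlgebraic A (B ⧸ 𝔭) := by
  haveI : IsDomain (B ⧸ 𝔭) := Ideal.Quotient.isDomain 𝔭
  -- the image of `x` is algebraic
  have hx : IsAlgebraic A (Ideal.Quotient.mk 𝔭 x) := by
    obtain ⟨f, hf0, hf⟩ : ∃ f : B, f ≠ 0 ∧ f ∈ 𝔭 := by
      by_contra hcon
      push Not at hcon
      apply h0
      rw [eq_bot_iff]
      intro f hf
      by_contra hf0
      exact hcon f hf0 hf
    have h1 := Ideal.comap_ne_bot_of_integral_mem hf0 hf (hint f)
    obtain ⟨s, hs, hs0⟩ : ∃ s : Algebra.adjoin A {x},
        s ∈ 𝔭.comap (algebraMap (Algebra.adjoin A {x}) B) ∧ s ≠ 0 := by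
      by_contra hcon
      push Not at hcon
      apply h1
      rw [eq_bot_iff]
      intro s hs
      exact hcon s hs
    have hsmem : (s : B) ∈ (Polynomial.aeval x : Polynomial A →ₐ[A] B).range := by
      rw [← Algebra.adjoin_singleton_eq_range_aeval]
      exact s.2
    obtain ⟨P, hP⟩ := hsmem
    refine ⟨P, ?_, ?_⟩
    · rintro rfl
      apply hs0
      apply Subtype.ext
      rw [← hP]
      simp
    · have : Polynomial.aeval (Ideal.Quotient.mk 𝔭 x) P =
          Ideal.Quotient.mk 𝔭 (Polynomial.aeval x P) := by
        rw [← Ideal.Quotient.mkₐ_eq_mk A, ← Polynomial.aeval_algHom_apply]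
      rw [this]
      have hP' : Polynomial.aeval x P = (s : B) := hP
      rw [hP', Ideal.Quotient.eq_zero_iff_mem]
      exact hs
  -- the algebraic elements form a subalgebra containing the image of `A[x]`
  let S := Subalgebra.algebraicClosure A (B ⧸ 𝔭)
  have hle : (Algebra.adjoin A {x}).map (Ideal.Quotient.mkₐ A 𝔭) ≤ S := by
    rw [Subalgebra.map_le, Algebra.adjoin_le_iff]
    rintro _ rfl
    exact hx
  let g : Algebra.adjoin A {x} →+* S :=
    { toFun := fun t => ⟨Ideal.Quotient.mk 𝔭 (t : B),
        hle (Subalgebra.mem_map.2 ⟨t, t.2, rfl⟩)⟩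
      map_one' := by ext; simp
      map_mul' := by intro u v; ext; simp
      map_zero' := by ext; simp
      map_add' := by intro u v; ext; simp }
  refine ⟨fun c => ?_⟩
  obtain ⟨b, rfl⟩ := Ideal.Quotient.mk_surjective c
  have h2 : IsIntegral S (Ideal.Quotient.mk 𝔭 b) := by
    refine IsIntegral.map_of_comp_eq g (Ideal.Quotient.mk 𝔭) ?_ (hint b)
    ext t
    rfl
  exact IsAlgebraic.restrictScalars A h2.isAlgebraic

/-- `Chart A B` from concrete hypotheses: `A → B` injective, content decomposition, `𝔪B` prime,
`B` of finite type over `A` and integral over `A[x]`. -/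
theorem Chart.of_finiteType_of_isIntegral [IsDomain B] [Algebra.FiniteType A B]
    (inj : Function.Injective (algebraMap A B))
    (content : ∀ f : B, f ≠ 0 → ∃ c : A, c ≠ 0 ∧ ∃ f' : B, f' ∉ mB A B ∧ f = c • f')
    (prime : (mB A B).IsPrime) (x : B)
    (hint : ∀ b : B, IsIntegral (Algebra.adjoin A {x}) b) : Chart A B where
  inj := inj
  content := content
  prime := prime
  alg := fun 𝔭 _ h0 _ => isAlgebraic_quotient_of_isIntegral x hint 𝔭 h0
  fg := fun φ => ker_fg_of_finiteType φ

end Adapt

end Fermat.Agent.S37.H579.Arg
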