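import Mathlib

/-!
# ARG (helper579, row S37): points of a residue disc — basic setting and existence of points

Mathlib-only, abstract.  Setting:

* `A` a valuation ring (domain) with algebraically closed fraction field `L`, maximal ideal `𝔪`;
* `B` an `A`-algebra, a domain (a "chart" of an arithmetic surface over `A`);
* `mB A B = 𝔪 B`.

`Chart A B` bundles the global hypotheses on `B`:
* `inj`     : `A → B` injective;
* `content` : every `f ≠ 0` is `c • f'` with `c ≠ 0` in `A` and `f' ∉ 𝔪B` (Gauss norm / q-expansion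
              principle);
* `prime`   : `𝔪B` is prime (special fibre integral);
* `alg`     : for a nonzero prime `𝔭` of `B` with `𝔭 ∩ A = 0` the quotient `B/𝔭` is algebraic over
              `A` (generic fibre of dimension `≤ 1`);
* `fg`      : kernels of `A`-points are finitely generated (true if `B` is of finite type).

`Pt A B` is a `k`-rational point of the special fibre (`k = A/𝔪`) at which the special fibre is
"DVR-like with uniformizer `t`", in elementwise form:
* `N` the prime ideal of the point, `𝔪B ≤ N`, `rational : ∀ b, ∃ a : A, b - a ∈ N`;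
* `t ∈ N`; `dvr : ∀ y ∉ 𝔪B, ∃ m s g, s ∉ N ∧ g ∉ N ∧ s * y - t ^ m * g ∈ 𝔪B`.

`disc x` is the set of `A`-points `φ : B →ₐ[A] A` reducing to `x` (the residue disc of `x`).

Main result of this file: `exists_point` — if `y ∈ N`, `y ∉ 𝔪B` then `y` has a zero in the residue
disc of `x`.
-/

namespace Fermat.Agent.S37.H579.Arg

open IsLocalRing

section Defs

variable (A : Type*) [CommRing A] [IsDomain A] [ValuationRing A]
variable (B : Type*) [CommRing B] [Algebra A B]

/-- The ideal `𝔪 B` of the special fibre. -/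
def mB : Ideal B := (maximalIdeal A).map (algebraMap A B)

/-- Global hypotheses on a chart `B` over the valuation ring `A`. -/
structure Chart : Prop where
  inj : Function.Injective (algebraMap A B)
  content : ∀ f : B, f ≠ 0 → ∃ c : A, c ≠ 0 ∧ ∃ f' : B, f' ∉ mB A B ∧ f = c • f'
  prime : (mB A B).IsPrime
  alg : ∀ 𝔭 : Ideal B, 𝔭.IsPrime → 𝔭 ≠ ⊥ → 𝔭.comap (algebraMap A B) = ⊥ →
    Algebra.IsAlgebraic A (B ⧸ 𝔭)
  fg : ∀ φ : B →ₐ[A] A, (RingHom.ker φ).FG

/-- A rational point of the special fibre at which the special fibre is DVR-like with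
uniformizer `t` (elementwise form). -/
structure Pt where
  N : Ideal B
  t : B
  prime : N.IsPrime
  mB_le : mB A B ≤ N
  rational : ∀ b : B, ∃ a : A, b - algebraMap A B a ∈ N
  t_mem : t ∈ N
  dvr : ∀ y : B, y ∉ mB A B → ∃ (m : ℕ) (s g : B), s ∉ N ∧ g ∉ N ∧ s * y - t ^ m * g ∈ mB A B

variable {A B}

/-- The residue disc of `x`: the `A`-points of `B` reducing to `x`. -/
def disc (x : Pt A B) : Set (B →ₐ[A] A) := {φ | ∀ b ∈ x.N, φ b ∈ maximalIdeal A}

end Defs

section Basic

variable {A : Type*} [CommRing A] [IsDomain A] [ValuationRing A]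
variable {B : Type*} [CommRing B] [Algebra A B]

theorem algebraMap_mem_mB {a : A} (ha : a ∈ maximalIdeal A) : algebraMap A B a ∈ mB A B :=
  Ideal.mem_map_of_mem _ ha

theorem smul_mem_mB {a : A} (ha : a ∈ maximalIdeal A) (b : B) : a • b ∈ mB A B := by
  rw [Algebra.smul_def]
  exact Ideal.mul_mem_right _ _ (algebraMap_mem_mB ha)

theorem Pt.algebraMap_mem_iff (x : Pt A B) (a : A) :
    algebraMap A B a ∈ x.N ↔ a ∈ maximalIdeal A := by
  constructor
  · intro h
    by_contra ha
    have hu : IsUnit a := by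
      by_contra hu
      exact ha ((IsLocalRing.mem_maximalIdeal a).2 hu)
    have : IsUnit (algebraMap A B a) := hu.map _
    exact x.prime.ne_top (Ideal.eq_top_of_isUnit_mem _ h this)
  · intro h
    exact x.mB_le (algebraMap_mem_mB h)

theorem Pt.one_notMem (x : Pt A B) : (1 : B) ∉ x.N := fun h =>
  x.prime.ne_top ((Ideal.eq_top_iff_one _).2 h)

/-- Every `A`-point maps `𝔪B` into `𝔪`. -/
theorem map_mem_of_mem_mB (φ : B →ₐ[A] A) {b : B} (hb : b ∈ mB A B) :
    φ b ∈ maximalIdeal A := by
  have h : mB A B ≤ (maximalIdeal A).comap φ.toRingHom := by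
    rw [mB, Ideal.map_le_iff_le_comap]
    intro a ha
    simpa using ha
  exact h hb

theorem mem_disc_iff (x : Pt A B) (φ : B →ₐ[A] A) :
    φ ∈ disc x ↔ ∀ b, b ∈ x.N ↔ φ b ∈ maximalIdeal A := by
  constructor
  · intro h b
    refine ⟨h b, fun hb => ?_⟩
    obtain ⟨a, ha⟩ := x.rational b
    have h1 := h _ ha
    rw [map_sub, AlgHom.commutes, Algebra.algebraMap_self_apply] at h1
    have h2 : a ∈ maximalIdeal A := by
      have := Ideal.sub_mem _ hb h1
      simpa using this
    have h3 := (x.algebraMap_mem_iff a).2 h2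
    have := Ideal.add_mem _ ha h3
    simpa using this
  · intro h b hb
    exact (h b).1 hb

/-- The kernel of a point of the residue disc is contained in `N`. -/
theorem ker_le_of_mem_disc {x : Pt A B} {φ : B →ₐ[A] A} (hφ : φ ∈ disc x) {b : B}
    (hb : φ b = 0) : b ∈ x.N :=
  ((mem_disc_iff x φ).1 hφ b).2 (by rw [hb]; exact Ideal.zero_mem _)

theorem sub_algebraMap_mem_ker (φ : B →ₐ[A] A) (b : B) : φ (b - algebraMap A B (φ b)) = 0 := by
  rw [map_sub, AlgHom.commutes, Algebra.algebraMap_self_apply, sub_self]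

end Basic

end Fermat.Agent.S37.H579.Arg
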