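import Fermat.Agent.S37.H579.ArgBasic

set_option linter.unusedSectionVars false
set_option linter.style.haveILetI false

namespace Fermat.Agent.S37.H579.Arg

open IsLocalRing

section Exists

variable {A : Type*} [CommRing A] [IsDomain A] [ValuationRing A]
variable {B : Type*} [CommRing B] [IsDomain B] [Algebra A B]

/-- The multiplicative set `(A ∖ 0) · (B ∖ N)`. -/
def avoidSet (x : Pt A B) : Submonoid B where
  carrier := {b | ∃ c : A, c ≠ 0 ∧ ∃ s : B, s ∉ x.N ∧ b = c • s}
  one_mem' := ⟨1, one_ne_zero, 1, x.one_notMem, by simp⟩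
  mul_mem' := by
    rintro _ _ ⟨c, hc, s, hs, rfl⟩ ⟨c', hc', s', hs', rfl⟩
    refine ⟨c * c', mul_ne_zero hc hc', s * s', fun h => ?_, ?_⟩
    · rcases x.prime.mem_or_mem h with h | h
      · exact hs h
      · exact hs' h
    · rw [smul_mul_smul_comm]

theorem smul_cancel (hB : Chart A B) {c : A} (hc : c ≠ 0) {u v : B} (h : c • u = c • v) :
    u = v := by
  rw [Algebra.smul_def, Algebra.smul_def] at h
  have hc' : algebraMap A B c ≠ 0 := fun h0 => hc (hB.inj (by rw [h0, map_zero]))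
  exact mul_left_cancel₀ hc' h

/-- Torsion-freeness modulo `y`: the ideal `(y)` is disjoint from `(A ∖ 0)·(B ∖ N)`. -/
theorem disjoint_span_avoidSet (hB : Chart A B) (x : Pt A B) {y : B} (hy : y ∈ x.N)
    (hy' : y ∉ mB A B) :
    Disjoint ((Ideal.span {y} : Ideal B) : Set B) (avoidSet x : Set B) := by
  rw [Set.disjoint_left]
  rintro b hb ⟨c, hc, s, hs, rfl⟩
  obtain ⟨h, hh⟩ := Ideal.mem_span_singleton'.1 hb
  have hh0 : h ≠ 0 := by
    rintro rfl
    rw [zero_mul] at hh
    have : c • s = c • (0 : B) := by rw [← hh, smul_zero]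
    exact hs (by rw [smul_cancel hB hc this]; exact Ideal.zero_mem _)
  obtain ⟨d, hd, h', hh', rfl⟩ := hB.content h hh0
  rcases ValuationRing.dvd_total d c with ⟨e, rfl⟩ | ⟨e, rfl⟩
  · -- c = d * e
    have h1 : h' * y = e • s := by
      apply smul_cancel hB hd
      rw [← smul_mul_assoc, hh, mul_smul]
    have h2 : e • s ∈ x.N := by rw [← h1]; exact Ideal.mul_mem_left _ _ hy
    rw [Algebra.smul_def] at h2
    have he : e ∈ maximalIdeal A := by
      rcases x.prime.mem_or_mem h2 with h3 | h3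
      · exact (x.algebraMap_mem_iff e).1 h3
      · exact absurd h3 hs
    have h3 : h' * y ∈ mB A B := by rw [h1]; exact smul_mem_mB he s
    rcases hB.prime.mem_or_mem h3 with h4 | h4
    · exact hh' h4
    · exact hy' h4
  · -- d = c * e
    have h1 : s = e • (h' * y) := by
      apply smul_cancel hB hc
      rw [← hh, ← mul_smul, smul_mul_assoc]
    apply hs
    rw [h1, Algebra.smul_def]
    exact Ideal.mul_mem_left _ _ (Ideal.mul_mem_left _ _ hy)

variable (L : Type*) [Field L] [Algebra A L] [IsFractionRing A L] [IsAlgClosed L]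

/-- An `A`-algebra homomorphism from a domain algebraic over `A` to a field extension of `A` is
injective. -/
theorem injective_of_isAlgebraic {C : Type*} [CommRing C] [IsDomain C] [Algebra A C]
    [Algebra.IsAlgebraic A C] (ψ : C →ₐ[A] L) : Function.Injective ψ := by
  rw [injective_iff_map_eq_zero]
  intro c hc
  by_contra hc0
  obtain ⟨q, hq0, hq⟩ :=
    (Algebra.IsAlgebraic.isAlgebraic (R := A) c).exists_nonzero_coeff_and_aeval_eq_zero
      (mem_nonZeroDivisors_of_ne_zero hc0)
  have h1 : Polynomial.aeval (ψ c) q = 0 := by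
    rw [Polynomial.aeval_algHom_apply, hq, map_zero]
  rw [hc, ← Polynomial.coeff_zero_eq_aeval_zero'] at h1
  exact hq0 ((IsFractionRing.injective A L) (by rw [h1, map_zero]))

/-- A prime `𝔭 ≠ 0` of `B` with `𝔭 ∩ A = 0` is the kernel of an `L`-point. -/
theorem exists_algHom_ker_eq (hB : Chart A B) (𝔭 : Ideal B) [h𝔭 : 𝔭.IsPrime] (h0 : 𝔭 ≠ ⊥)
    (hA : 𝔭.comap (algebraMap A B) = ⊥) :
    ∃ ψ : B →ₐ[A] L, ∀ b, ψ b = 0 ↔ b ∈ 𝔭 := by
  haveI := hB.alg 𝔭 h𝔭 h0 hA
  haveI : IsDomain (B ⧸ 𝔭) := Ideal.Quotient.isDomain 𝔭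
  have hinj : Function.Injective (algebraMap A (B ⧸ 𝔭)) := by
    rw [injective_iff_map_eq_zero]
    intro a ha
    have : a ∈ 𝔭.comap (algebraMap A B) := by
      rw [Ideal.mem_comap, ← Ideal.Quotient.eq_zero_iff_mem]
      exact ha
    rw [hA] at this
    exact this
  haveI : Module.IsTorsionFree A (B ⧸ 𝔭) := Module.isTorsionFree_iff_algebraMap_injective.2 hinj
  haveI : Module.IsTorsionFree A L :=
    Module.isTorsionFree_iff_algebraMap_injective.2 (IsFractionRing.injective A L)
  let ψ₀ : (B ⧸ 𝔭) →ₐ[A] L := IsAlgClosed.lift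
  refine ⟨ψ₀.comp (Ideal.Quotient.mkₐ A 𝔭), fun b => ?_⟩
  rw [AlgHom.comp_apply, Ideal.Quotient.mkₐ_eq_mk, ← Ideal.Quotient.eq_zero_iff_mem]
  constructor
  · intro h
    exact injective_of_isAlgebraic L ψ₀ (by rw [h, map_zero])
  · intro h
    rw [h, map_zero]

/-- An `L`-point whose kernel is contained in `N` is integral: it is an `A`-point. -/
theorem exists_algHom_of_ker_le (x : Pt A B) (ψ : B →ₐ[A] L) (hψ : ∀ b, ψ b = 0 → b ∈ x.N) :
    ∃ φ : B →ₐ[A] A, ∀ b, algebraMap A L (φ b) = ψ b := by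
  have hint : ∀ b, ψ b ∈ (⊥ : Subalgebra A L) := by
    intro b
    rw [Algebra.mem_bot]
    by_cases h0 : ψ b = 0
    · exact ⟨0, by rw [h0, map_zero]⟩
    rcases ValuationRing.isInteger_or_isInteger A (ψ b) with ⟨a, ha⟩ | ⟨u, hu⟩
    · exact ⟨a, ha⟩
    · have h1 : algebraMap A L u * ψ b = 1 := by
        rw [hu]
        exact inv_mul_cancel₀ h0
      by_cases hu' : IsUnit u
      · obtain ⟨v, hv⟩ := hu'.exists_right_inv
        refine ⟨v, ?_⟩
        have h2 : algebraMap A L u * algebraMap A L v = 1 := by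
          rw [← map_mul, hv, map_one]
        have h3 : algebraMap A L u ≠ 0 := by
          intro h
          rw [h, zero_mul] at h1
          exact zero_ne_one h1
        exact mul_left_cancel₀ h3 (h2.trans h1.symm)
      · exfalso
        have hum : u ∈ maximalIdeal A := (IsLocalRing.mem_maximalIdeal u).2 hu'
        have h2 : ψ (1 - u • b) = 0 := by
          rw [map_sub, map_one, map_smul, Algebra.smul_def, h1, sub_self]
        have h3 := hψ _ h2
        have h4 : u • b ∈ x.N := x.mB_le (smul_mem_mB hum b)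
        have h5 := Ideal.add_mem _ h3 h4
        rw [sub_add_cancel] at h5
        exact x.one_notMem h5
  let e := Algebra.botEquivOfInjective (IsFractionRing.injective A L)
  refine ⟨e.toAlgHom.comp (ψ.codRestrict ⊥ hint), fun b => ?_⟩
  have h1 : ∀ z : (⊥ : Subalgebra A L), algebraMap A L (e z) = z := by
    intro z
    have := e.symm_apply_apply z
    conv_rhs => rw [← this]
    rfl
  exact h1 _

/-- **Existence of zeros in the residue disc.**  If `y` vanishes at the point `x` of the special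
fibre and `y ∉ 𝔪B`, then `y` vanishes at some `A`-point of the residue disc of `x`. -/
theorem exists_point (L : Type*) [Field L] [Algebra A L] [IsFractionRing A L] [IsAlgClosed L]
    (hB : Chart A B) (x : Pt A B) {y : B} (hy : y ∈ x.N)
    (hy' : y ∉ mB A B) : ∃ φ ∈ disc x, φ y = 0 := by
  obtain ⟨𝔭, h𝔭, hle, hdisj⟩ :=
    Ideal.exists_le_prime_disjoint (Ideal.span {y}) (avoidSet x) (disjoint_span_avoidSet hB x hy hy')
  rw [Set.disjoint_left] at hdisj
  have hy𝔭 : y ∈ 𝔭 := hle (Ideal.mem_span_singleton_self y)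
  have h0 : 𝔭 ≠ ⊥ := by
    rintro rfl
    apply hy'
    rw [Ideal.mem_bot.1 hy𝔭]
    exact Ideal.zero_mem _
  have hA : 𝔭.comap (algebraMap A B) = ⊥ := by
    rw [eq_bot_iff]
    intro c hc
    rw [Ideal.mem_bot]
    by_contra hc0
    refine hdisj (Ideal.mem_comap.1 hc) ⟨c, hc0, 1, x.one_notMem, ?_⟩
    rw [Algebra.algebraMap_eq_smul_one]
  have hN : ∀ b ∈ 𝔭, b ∈ x.N := by
    intro b hb
    by_contra hbN
    exact hdisj hb ⟨1, one_ne_zero, b, hbN, (one_smul _ _).symm⟩
  obtain ⟨ψ, hψ⟩ := exists_algHom_ker_eq L hB 𝔭 h0 hA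
  obtain ⟨φ, hφ⟩ := exists_algHom_of_ker_le L x ψ (fun b hb => hN b ((hψ b).1 hb))
  have hker : ∀ b, φ b = 0 ↔ b ∈ 𝔭 := by
    intro b
    rw [← hψ b, ← hφ b]
    constructor
    · intro h; rw [h, map_zero]
    · intro h; exact IsFractionRing.injective A L (by rw [h, map_zero])
  refine ⟨φ, ?_, (hker y).2 hy𝔭⟩
  intro b hb
  by_contra hb'
  have h1 : b - algebraMap A B (φ b) ∈ x.N := hN _ ((hker _).1 (sub_algebraMap_mem_ker φ b))
  have h2 : algebraMap A B (φ b) ∈ x.N := by
    have := Ideal.sub_mem _ hb h1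
    simpa using this
  exact hb' ((x.algebraMap_mem_iff _).1 h2)

end Exists

end Fermat.Agent.S37.H579.Arg
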