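import Fermat.Agent.S37.H579.ArgExists

/-!
# ARG (helper579, row S37): the kernel of a point of a residue disc

`ker_point`: for an `A`-point `φ` in the residue disc of `x` and `f ∈ ker φ` there are
`d ∉ N`, `g` with `d * f = (t - φ t) * g`; i.e. in the local ring `B_N` the kernel of `φ` is
generated by `t - φ t`.  Proof: Nakayama in `B_N` (the kernel is finitely generated and equal to
`(t - φ t) + 𝔪 · ker`).
-/

set_option linter.unusedSectionVars false
set_option linter.style.haveILetI false

namespace Fermat.Agent.S37.H579.Arg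

open IsLocalRing

section Ker

variable {A : Type*} [CommRing A] [IsDomain A] [ValuationRing A]
variable {B : Type*} [CommRing B] [IsDomain B] [Algebra A B]

/-- `𝔪B ∩ ker φ ⊆ 𝔪B · ker φ` for an `A`-point `φ` (because `B = A ⊕ ker φ`). -/
theorem sub_mem_mB_mul_ker (φ : B →ₐ[A] A) {h : B} (hh : h ∈ mB A B) :
    h - algebraMap A B (φ h) ∈ mB A B * RingHom.ker φ := by
  unfold mB at hh
  induction hh using Submodule.span_induction with
  | mem h hmem =>
    obtain ⟨μ, hμ, rfl⟩ := hmem
    rw [AlgHom.commutes, Algebra.algebraMap_self_apply, sub_self]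
    exact Ideal.zero_mem _
  | zero =>
    rw [map_zero, map_zero, sub_self]
    exact Ideal.zero_mem _
  | add u v hu hv ihu ihv =>
    have : u + v - algebraMap A B (φ (u + v)) =
        (u - algebraMap A B (φ u)) + (v - algebraMap A B (φ v)) := by
      rw [map_add, map_add]; ring
    rw [this]
    exact Ideal.add_mem _ ihu ihv
  | smul b u hu ihu =>
    have hu' : u ∈ mB A B := hu
    have : b • u - algebraMap A B (φ (b • u)) =
        b * (u - algebraMap A B (φ u)) + algebraMap A B (φ u) * (b - algebraMap A B (φ b)) := by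
      rw [smul_eq_mul, map_mul, map_mul]; ring
    rw [this]
    refine Ideal.add_mem _ (Ideal.mul_mem_left _ _ ihu) (Ideal.mul_mem_mul ?_ ?_)
    · exact algebraMap_mem_mB (map_mem_of_mem_mB φ hu')
    · exact RingHom.mem_ker.2 (sub_algebraMap_mem_ker φ b)

/-- First approximation: modulo `𝔪B · ker φ`, the kernel of `φ` is generated by `t - φ t`
after inverting elements outside `N`. -/
theorem exists_mul_sub_mem (x : Pt A B) {φ : B →ₐ[A] A} (hφ : φ ∈ disc x) {p : B}
    (hp : φ p = 0) :
    ∃ s g : B, s ∉ x.N ∧
      s * p - (x.t - algebraMap A B (φ x.t)) * g ∈ mB A B * RingHom.ker φ := by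
  have ha : φ x.t ∈ maximalIdeal A := hφ _ x.t_mem
  by_cases hpm : p ∈ mB A B
  · refine ⟨1, 0, x.one_notMem, ?_⟩
    have := sub_mem_mB_mul_ker φ hpm
    rw [hp, map_zero, sub_zero] at this
    simpa using this
  · obtain ⟨m, s, g₀, hs, hg₀, hrel⟩ := x.dvr p hpm
    have hpN : p ∈ x.N := ker_le_of_mem_disc hφ hp
    have hm : m ≠ 0 := by
      rintro rfl
      rw [pow_zero, one_mul] at hrel
      have h1 : s * p - g₀ ∈ x.N := x.mB_le hrel
      have h2 : s * p ∈ x.N := Ideal.mul_mem_left _ _ hpN
      have := Ideal.sub_mem _ h2 h1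
      rw [sub_sub_cancel] at this
      exact hg₀ this
    obtain ⟨m', rfl⟩ := Nat.exists_eq_succ_of_ne_zero hm
    refine ⟨s, x.t ^ m' * g₀, hs, ?_⟩
    set a := φ x.t with ha_def
    have hmem : s * p - (x.t - algebraMap A B a) * (x.t ^ m' * g₀) ∈ mB A B := by
      have : s * p - (x.t - algebraMap A B a) * (x.t ^ m' * g₀) =
          (s * p - x.t ^ (m' + 1) * g₀) + algebraMap A B a * (x.t ^ m' * g₀) := by
        ring
      rw [this]
      exact Ideal.add_mem _ hrel (Ideal.mul_mem_right _ _ (algebraMap_mem_mB ha))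
    have h1 := sub_mem_mB_mul_ker φ hmem
    have h2 : φ (s * p - (x.t - algebraMap A B a) * (x.t ^ m' * g₀)) = 0 := by
      rw [map_sub, map_mul, map_mul, hp, mul_zero, map_sub, AlgHom.commutes,
        Algebra.algebraMap_self_apply, sub_self, zero_mul, sub_zero]
    rw [h2, map_zero, sub_zero] at h1
    exact h1

/-- **Kernel of a point of the residue disc.**  After inverting elements outside `N`, the kernel
of `φ` is generated by `t - φ t`. -/
theorem ker_point (hB : Chart A B) (x : Pt A B) {φ : B →ₐ[A] A} (hφ : φ ∈ disc x) {f : B}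
    (hf : φ f = 0) :
    ∃ d g : B, d ∉ x.N ∧ d * f = (x.t - algebraMap A B (φ x.t)) * g := by
  haveI := x.prime
  let R := Localization.AtPrime x.N
  obtain ⟨z, hz⟩ : ∃ z : B, z = x.t - algebraMap A B (φ x.t) := ⟨_, rfl⟩
  rw [← hz]
  have hle : (RingHom.ker φ).map (algebraMap B R) ≤ Ideal.span {algebraMap B R z} := by
    apply Submodule.le_of_le_smul_of_le_jacobson_bot (I := (mB A B).map (algebraMap B R))
    · exact (hB.fg φ).map _
    · rw [IsLocalRing.jacobson_eq_maximalIdeal ⊥ bot_ne_top,
        ← Localization.AtPrime.map_eq_maximalIdeal]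
      exact Ideal.map_mono x.mB_le
    · rw [Ideal.map_le_iff_le_comap]
      intro p hp
      rw [Ideal.mem_comap]
      obtain ⟨s, g, hs, hrel⟩ := exists_mul_sub_mem x hφ (RingHom.mem_ker.1 hp)
      rw [← hz] at hrel
      have hu : IsUnit (algebraMap B R s) :=
        IsLocalization.map_units R (⟨s, hs⟩ : x.N.primeCompl)
      have h1 : algebraMap B R (s * p - z * g) ∈
          (mB A B).map (algebraMap B R) • (RingHom.ker φ).map (algebraMap B R) := by
        rw [smul_eq_mul, ← Ideal.map_mul]
        exact Ideal.mem_map_of_mem _ hrel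
      have h2 : algebraMap B R s * algebraMap B R p ∈
          Ideal.span {algebraMap B R z} ⊔
            (mB A B).map (algebraMap B R) • (RingHom.ker φ).map (algebraMap B R) := by
        have : algebraMap B R s * algebraMap B R p =
            algebraMap B R g * algebraMap B R z + algebraMap B R (s * p - z * g) := by
          rw [map_sub, map_mul, map_mul]; ring
        rw [this]
        exact Submodule.add_mem_sup
          (Ideal.mul_mem_left _ _ (Ideal.mem_span_singleton_self _)) h1
      obtain ⟨v, hv⟩ := hu.exists_left_inv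
      have h3 : algebraMap B R p = v * (algebraMap B R s * algebraMap B R p) := by
        rw [← mul_assoc, hv, one_mul]
      rw [h3]
      exact Ideal.mul_mem_left _ v h2
  have hfmem : algebraMap B R f ∈ Ideal.span {algebraMap B R z} :=
    hle (Ideal.mem_map_of_mem _ (RingHom.mem_ker.2 hf))
  obtain ⟨r, hr⟩ := Ideal.mem_span_singleton'.1 hfmem
  obtain ⟨⟨g, d⟩, hgd⟩ := IsLocalization.surj x.N.primeCompl r
  simp only at hgd
  refine ⟨d, g, d.2, ?_⟩
  have hinj : Function.Injective (algebraMap B R) :=
    IsLocalization.injective R (Ideal.primeCompl_le_nonZeroDivisors x.N)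
  apply hinj
  rw [map_mul, map_mul, ← hr, ← hgd]
  ring

end Ker

end Fermat.Agent.S37.H579.Arg
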