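import Fermat.Agent.S37.H579.ArgKer

/-!
# ARG (helper579, row S37): Weierstrass factorization in a residue disc and conservation of zeros

Setting of `ArgBasic`.  Main results:

* `point_ext`      : a point `φ` of the residue disc of `x` is determined by `φ t`;
* `exists_point_t_eq` : every `a ∈ 𝔪` is `φ t` for a point of the disc (if `t ∉ 𝔪B`), so that
                     `φ ↦ φ t` is a bijection from the residue disc onto `𝔪`;
* `factorization`  : for `y ∉ 𝔪B` of order `m` at `x` (i.e. `s y ≡ t ^ m g` mod `𝔪B` with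
                     `s, g ∉ N`) there are `m` points `φ₁, …, φ_m` of the disc (with multiplicity)
                     and `s', g' ∉ N` with `s' * y = g' * ∏ (t - φ_i t)`;
* `sum_ord_eq`     : conservation of zeros: for any order function `ord φ` on the points of the
                     disc which is additive, vanishes on functions not vanishing at `φ` and is
                     `1` on the local generator `t - φ t`, the sum of `ord φ y` over the zeros of
                     `y` in the disc is the order `m` of the reduction of `y` at `x`.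
-/

set_option linter.unusedSectionVars false
set_option linter.style.haveILetI false

namespace Fermat.Agent.S37.H579.Arg

open IsLocalRing

section Main

variable {A : Type*} [CommRing A] [IsDomain A] [ValuationRing A]
variable {B : Type*} [CommRing B] [IsDomain B] [Algebra A B]

/-- A point of the residue disc is determined by its value at `t`. -/
theorem point_ext (hB : Chart A B) (x : Pt A B) {φ φ' : B →ₐ[A] A} (hφ : φ ∈ disc x)
    (hφ' : φ' ∈ disc x) (h : φ x.t = φ' x.t) : φ = φ' := by
  have key : ∀ f, φ f = 0 → φ' f = 0 := by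
    intro f hf
    obtain ⟨d, g, hd, hdf⟩ := ker_point hB x hφ hf
    have h1 : φ' d * φ' f = 0 := by
      rw [← map_mul, hdf, map_mul, map_sub, AlgHom.commutes, Algebra.algebraMap_self_apply, h,
        sub_self, zero_mul]
    rcases mul_eq_zero.1 h1 with h2 | h2
    · exact absurd (ker_le_of_mem_disc hφ' h2) hd
    · exact h2
  apply AlgHom.ext
  intro b
  have h1 := key _ (sub_algebraMap_mem_ker φ b)
  rw [map_sub, AlgHom.commutes, Algebra.algebraMap_self_apply, sub_eq_zero] at h1
  exact h1.symm

/-- If some `y ∉ 𝔪B` has positive order at `x` then `t ∉ 𝔪B`. -/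
theorem t_notMem_mB (hB : Chart A B) (x : Pt A B) {y : B} (hy : y ∉ mB A B) {m : ℕ}
    {s g : B} (hs : s ∉ x.N) (h : s * y - x.t ^ (m + 1) * g ∈ mB A B) : x.t ∉ mB A B := by
  intro ht
  have h1 : x.t ^ (m + 1) * g ∈ mB A B :=
    Ideal.mul_mem_right _ _ (Ideal.pow_mem_of_mem _ ht _ (Nat.succ_pos m))
  have h2 : s * y ∈ mB A B := by
    have := Ideal.add_mem _ h h1
    rwa [sub_add_cancel] at this
  rcases hB.prime.mem_or_mem h2 with h3 | h3
  · exact hs (x.mB_le h3)
  · exact hy h3

theorem order_not_lt (hB : Chart A B) (x : Pt A B) {y : B} (hy : y ∉ mB A B) {m m' : ℕ}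
    {s g s' g' : B} (hg : g ∉ x.N) (hs' : s' ∉ x.N)
    (h : s * y - x.t ^ m * g ∈ mB A B) (h' : s' * y - x.t ^ m' * g' ∈ mB A B) : ¬ m < m' := by
  intro hlt
  obtain ⟨j, rfl⟩ := Nat.exists_eq_add_of_lt hlt
  have ht : x.t ∉ mB A B := by
    have h'' : s' * y - x.t ^ (m + j + 1) * g' ∈ mB A B := h'
    exact t_notMem_mB hB x hy hs' h''
  have h1 : x.t ^ m * (s * (x.t ^ (j + 1) * g') - s' * g) ∈ mB A B := by
    have : x.t ^ m * (s * (x.t ^ (j + 1) * g') - s' * g) =
        s' * (s * y - x.t ^ m * g) - s * (s' * y - x.t ^ (m + j + 1) * g') := by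
      ring
    rw [this]
    exact Ideal.sub_mem _ (Ideal.mul_mem_left _ _ h) (Ideal.mul_mem_left _ _ h')
  have h2 : s * (x.t ^ (j + 1) * g') - s' * g ∈ mB A B := by
    rcases hB.prime.mem_or_mem h1 with h3 | h3
    · exact absurd (hB.prime.mem_of_pow_mem _ h3) ht
    · exact h3
  have h3 : s * (x.t ^ (j + 1) * g') ∈ x.N :=
    Ideal.mul_mem_left _ _ (Ideal.mul_mem_right _ _
      (Ideal.pow_mem_of_mem _ x.t_mem _ (Nat.succ_pos j)))
  have h4 : s' * g ∈ x.N := by
    have := Ideal.sub_mem _ h3 (x.mB_le h2)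
    rwa [sub_sub_cancel] at this
  rcases x.prime.mem_or_mem h4 with h5 | h5
  · exact hs' h5
  · exact hg h5

/-- The order witness is unique: the order of the reduction of `y` at `x` is well defined. -/
theorem order_unique (hB : Chart A B) (x : Pt A B) {y : B} (hy : y ∉ mB A B) {m m' : ℕ}
    {s g s' g' : B} (hs : s ∉ x.N) (hg : g ∉ x.N) (hs' : s' ∉ x.N) (hg' : g' ∉ x.N)
    (h : s * y - x.t ^ m * g ∈ mB A B) (h' : s' * y - x.t ^ m' * g' ∈ mB A B) : m = m' :=
  le_antisymm (not_lt.1 (order_not_lt hB x hy hg' hs h' h))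
    (not_lt.1 (order_not_lt hB x hy hg hs' h h'))

/-- Every element of `𝔪` is the value at `t` of a point of the residue disc (if `t ∉ 𝔪B`). -/
theorem exists_point_t_eq (L : Type*) [Field L] [Algebra A L] [IsFractionRing A L]
    [IsAlgClosed L] (hB : Chart A B) (x : Pt A B) (ht : x.t ∉ mB A B) {a : A}
    (ha : a ∈ maximalIdeal A) : ∃ φ ∈ disc x, φ x.t = a := by
  have h1 : x.t - algebraMap A B a ∈ x.N :=
    Ideal.sub_mem _ x.t_mem ((x.algebraMap_mem_iff a).2 ha)
  have h2 : x.t - algebraMap A B a ∉ mB A B := by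
    intro h
    have := Ideal.add_mem _ h (algebraMap_mem_mB (B := B) ha)
    rw [sub_add_cancel] at this
    exact ht this
  obtain ⟨φ, hφ, h3⟩ := exists_point L hB x h1 h2
  refine ⟨φ, hφ, ?_⟩
  rw [map_sub, AlgHom.commutes, Algebra.algebraMap_self_apply, sub_eq_zero] at h3
  exact h3

/-- The local factor of a point of the disc. -/
def factor (x : Pt A B) (φ : B →ₐ[A] A) : B := x.t - algebraMap A B (φ x.t)

theorem factor_sub_t_mem (x : Pt A B) {φ : B →ₐ[A] A} (hφ : φ ∈ disc x) :
    factor x φ - x.t ∈ mB A B := by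
  have : factor x φ - x.t = - algebraMap A B (φ x.t) := by unfold factor; ring
  rw [this]
  exact (Ideal.neg_mem_iff _).2 (algebraMap_mem_mB (hφ _ x.t_mem))

theorem map_factor_self (x : Pt A B) (φ : B →ₐ[A] A) : φ (factor x φ) = 0 :=
  sub_algebraMap_mem_ker φ x.t

theorem map_factor_eq_zero_iff (hB : Chart A B) (x : Pt A B) {φ φ' : B →ₐ[A] A}
    (hφ : φ ∈ disc x) (hφ' : φ' ∈ disc x) : φ (factor x φ') = 0 ↔ φ = φ' := by
  constructor
  · intro h
    apply point_ext hB x hφ hφ'
    unfold factor at h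
    rw [map_sub, AlgHom.commutes, Algebra.algebraMap_self_apply, sub_eq_zero] at h
    exact h
  · rintro rfl
    exact map_factor_self x φ

/-- The product of the local factors is congruent to a power of `t` modulo `𝔪B`. -/
theorem prod_factor_sub_pow_mem (x : Pt A B) (as : Multiset (B →ₐ[A] A))
    (has : ∀ φ ∈ as, φ ∈ disc x) :
    (as.map (factor x)).prod - x.t ^ Multiset.card as ∈ mB A B := by
  induction as using Multiset.induction_on with
  | empty => simp
  | cons φ as ih =>
    have h1 := ih (fun ψ hψ => has ψ (Multiset.mem_cons_of_mem hψ))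
    have h2 := factor_sub_t_mem x (has φ (Multiset.mem_cons_self φ as))
    have : ((φ ::ₘ as).map (factor x)).prod - x.t ^ Multiset.card (φ ::ₘ as) =
        factor x φ * ((as.map (factor x)).prod - x.t ^ Multiset.card as) +
          (factor x φ - x.t) * x.t ^ Multiset.card as := by
      rw [Multiset.map_cons, Multiset.prod_cons, Multiset.card_cons]; ring
    rw [this]
    exact Ideal.add_mem _ (Ideal.mul_mem_left _ _ h1) (Ideal.mul_mem_right _ _ h2)

/-- **Weierstrass factorization in the residue disc** (inductive form). -/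
theorem factorization_aux (L : Type*) [Field L] [Algebra A L] [IsFractionRing A L]
    [IsAlgClosed L] (hB : Chart A B) (x : Pt A B) (m : ℕ) :
    ∀ y : B, y ∉ mB A B →
      (∃ s g : B, s ∉ x.N ∧ g ∉ x.N ∧ s * y - x.t ^ m * g ∈ mB A B) →
      ∃ (as : Multiset (B →ₐ[A] A)) (s g : B), Multiset.card as = m ∧
        (∀ φ ∈ as, φ ∈ disc x) ∧ s ∉ x.N ∧ g ∉ x.N ∧
          s * y = g * (as.map (factor x)).prod := by
  induction m with
  | zero =>
    rintro y hy ⟨s, g, hs, hg, h⟩
    have hyN : y ∉ x.N := by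
      intro hyN
      rw [pow_zero, one_mul] at h
      have := Ideal.sub_mem _ (Ideal.mul_mem_left _ s hyN) (x.mB_le h)
      rw [sub_sub_cancel] at this
      exact hg this
    exact ⟨0, 1, y, rfl, by simp, x.one_notMem, hyN, by simp⟩
  | succ m ih =>
    rintro y hy ⟨s, g, hs, hg, h⟩
    have ht : x.t ∉ mB A B := t_notMem_mB hB x hy hs h
    have hyN : y ∈ x.N := by
      have h1 : x.t ^ (m + 1) * g ∈ x.N :=
        Ideal.mul_mem_right _ _ (Ideal.pow_mem_of_mem _ x.t_mem _ (Nat.succ_pos m))
      have h2 : s * y ∈ x.N := by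
        have := Ideal.add_mem _ (x.mB_le h) h1
        rwa [sub_add_cancel] at this
      rcases x.prime.mem_or_mem h2 with h3 | h3
      · exact absurd h3 hs
      · exact h3
    obtain ⟨φ, hφ, hφy⟩ := exists_point L hB x hyN hy
    obtain ⟨d, y₁, hd, hdy⟩ := ker_point hB x hφ hφy
    change d * y = factor x φ * y₁ at hdy
    have hy₁ : y₁ ∉ mB A B := by
      intro hy₁
      have h1 : d * y ∈ mB A B := by rw [hdy]; exact Ideal.mul_mem_left _ _ hy₁
      rcases hB.prime.mem_or_mem h1 with h2 | h2
      · exact hd (x.mB_le h2)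
      · exact hy h2
    have hord : s * y₁ - x.t ^ m * (d * g) ∈ mB A B := by
      have h1 : x.t * (s * y₁ - x.t ^ m * (d * g)) ∈ mB A B := by
        have : x.t * (s * y₁ - x.t ^ m * (d * g)) =
            d * (s * y - x.t ^ (m + 1) * g) - (factor x φ - x.t) * (s * y₁) := by
          have e1 : d * (s * y) = s * (factor x φ * y₁) := by rw [← hdy]; ring
          have : d * (s * y - x.t ^ (m + 1) * g) = s * (factor x φ * y₁) - d * (x.t ^ (m + 1) * g) := by
            rw [mul_sub, e1]
          rw [this]; ring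
        rw [this]
        exact Ideal.sub_mem _ (Ideal.mul_mem_left _ _ h)
          (Ideal.mul_mem_right _ _ (factor_sub_t_mem x hφ))
      rcases hB.prime.mem_or_mem h1 with h2 | h2
      · exact absurd h2 ht
      · exact h2
    have hdg : d * g ∉ x.N := by
      intro h1
      rcases x.prime.mem_or_mem h1 with h2 | h2
      · exact hd h2
      · exact hg h2
    obtain ⟨as, s', g', hcard, has, hs', hg', hfac⟩ := ih y₁ hy₁ ⟨s, d * g, hs, hdg, hord⟩
    refine ⟨φ ::ₘ as, s' * d, g', by rw [Multiset.card_cons, hcard], ?_, ?_, hg', ?_⟩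
    · intro ψ hψ
      rcases Multiset.mem_cons.1 hψ with rfl | hψ
      · exact hφ
      · exact has ψ hψ
    · intro h1
      rcases x.prime.mem_or_mem h1 with h2 | h2
      · exact hs' h2
      · exact hd h2
    · rw [Multiset.map_cons, Multiset.prod_cons, mul_assoc, hdy]
      have : s' * (factor x φ * y₁) = factor x φ * (s' * y₁) := by ring
      rw [this, hfac]; ring

/-- **Weierstrass factorization in the residue disc.**  Every `y ∉ 𝔪B` is, up to factors
invertible at `x`, a product of local factors `t - φ t` of points `φ` of the residue disc of `x`;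
the number of factors is the order of the reduction of `y` at `x`. -/
theorem factorization (L : Type*) [Field L] [Algebra A L] [IsFractionRing A L]
    [IsAlgClosed L] (hB : Chart A B) (x : Pt A B) {y : B} (hy : y ∉ mB A B) :
    ∃ (as : Multiset (B →ₐ[A] A)) (s g : B),
      (∀ φ ∈ as, φ ∈ disc x) ∧ s ∉ x.N ∧ g ∉ x.N ∧
        s * y = g * (as.map (factor x)).prod ∧
        s * y - x.t ^ Multiset.card as * g ∈ mB A B := by
  obtain ⟨m, s₀, g₀, hs₀, hg₀, h₀⟩ := x.dvr y hy
  obtain ⟨as, s, g, -, has, hs, hg, hfac⟩ :=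
    factorization_aux L hB x m y hy ⟨s₀, g₀, hs₀, hg₀, h₀⟩
  refine ⟨as, s, g, has, hs, hg, hfac, ?_⟩
  rw [hfac]
  have : g * (as.map (factor x)).prod - x.t ^ Multiset.card as * g =
      g * ((as.map (factor x)).prod - x.t ^ Multiset.card as) := by ring
  rw [this]
  exact Ideal.mul_mem_left _ _ (prod_factor_sub_pow_mem x as has)

/-- A function not in `N` does not vanish at the points of the residue disc. -/
theorem map_ne_zero_of_notMem {x : Pt A B} {φ : B →ₐ[A] A} (hφ : φ ∈ disc x) {s : B}
    (hs : s ∉ x.N) : φ s ≠ 0 := fun h => hs (ker_le_of_mem_disc hφ h)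

/-- The zeros of `y` in the residue disc are exactly the points of the factorization. -/
theorem zero_iff_mem_of_factorization (hB : Chart A B) (x : Pt A B) {y : B}
    {as : Multiset (B →ₐ[A] A)} {s g : B} (has : ∀ φ ∈ as, φ ∈ disc x) (hs : s ∉ x.N)
    (hg : g ∉ x.N) (hfac : s * y = g * (as.map (factor x)).prod) {φ : B →ₐ[A] A}
    (hφ : φ ∈ disc x) : φ y = 0 ↔ φ ∈ as := by
  have h1 : φ s * φ y = φ g * (as.map (fun ψ => φ (factor x ψ))).prod := by
    rw [← map_mul, hfac, map_mul, map_multiset_prod, Multiset.map_map]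
    rfl
  constructor
  · intro hy
    rw [hy, mul_zero] at h1
    rcases mul_eq_zero.1 h1.symm with h2 | h2
    · exact absurd h2 (map_ne_zero_of_notMem hφ hg)
    · rw [Multiset.prod_eq_zero_iff, Multiset.mem_map] at h2
      obtain ⟨ψ, hψ, h3⟩ := h2
      rw [(map_factor_eq_zero_iff hB x hφ (has ψ hψ)).1 h3]
      exact hψ
  · intro hmem
    have h2 : (as.map (fun ψ => φ (factor x ψ))).prod = 0 := by
      rw [Multiset.prod_eq_zero_iff, Multiset.mem_map]
      exact ⟨φ, hmem, map_factor_self x φ⟩
    rw [h2, mul_zero] at h1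
    rcases mul_eq_zero.1 h1 with h3 | h3
    · exact absurd h3 (map_ne_zero_of_notMem hφ hs)
    · exact h3

section Ord

variable (ord : (B →ₐ[A] A) → B → ℤ)

open Classical in
/-- For an abstract order function, the order of a product of local factors at a point of the
disc is the multiplicity of the point. -/
theorem ord_prod_factor (hB : Chart A B) (x : Pt A B)
    (hmul : ∀ φ ∈ disc x, ∀ f g : B, f ≠ 0 → g ≠ 0 → ord φ (f * g) = ord φ f + ord φ g)
    (hunit : ∀ φ ∈ disc x, ∀ f : B, φ f ≠ 0 → ord φ f = 0)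
    (hfac : ∀ φ ∈ disc x, ord φ (factor x φ) = 1)
    {φ : B →ₐ[A] A} (hφ : φ ∈ disc x) (as : Multiset (B →ₐ[A] A))
    (has : ∀ ψ ∈ as, ψ ∈ disc x) (hne : (as.map (factor x)).prod ≠ 0) :
    ord φ (as.map (factor x)).prod = (as.count φ : ℤ) := by
  induction as using Multiset.induction_on with
  | empty =>
    rw [Multiset.map_zero, Multiset.prod_zero, Multiset.count_zero, Nat.cast_zero]
    exact hunit φ hφ 1 (by rw [map_one]; exact one_ne_zero)
  | cons ψ as ih =>
    rw [Multiset.map_cons, Multiset.prod_cons] at hne ⊢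
    have hne1 : factor x ψ ≠ 0 := left_ne_zero_of_mul hne
    have hne2 : (as.map (factor x)).prod ≠ 0 := right_ne_zero_of_mul hne
    rw [hmul φ hφ _ _ hne1 hne2, ih (fun χ hχ => has χ (Multiset.mem_cons_of_mem hχ)) hne2,
      Multiset.count_cons]
    have hψ : ψ ∈ disc x := has ψ (Multiset.mem_cons_self ψ as)
    by_cases h : φ = ψ
    · subst h
      rw [hfac φ hφ, if_pos rfl]
      push_cast
      ring
    · rw [if_neg h, hunit φ hφ _ (fun h0 => h ((map_factor_eq_zero_iff hB x hφ hψ).1 h0))]
      push_cast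
      ring

open Classical in
/-- **Conservation of zeros (pointwise form).**  For an abstract order function `ord` on the
points of the residue disc (additive; `0` on functions not vanishing at the point; `1` on the
local factor of the point), the order of `y` at a point of the disc is the multiplicity of the
point in the Weierstrass factorization of `y`. -/
theorem ord_eq_count (hB : Chart A B) (x : Pt A B)
    (hmul : ∀ φ ∈ disc x, ∀ f g : B, f ≠ 0 → g ≠ 0 → ord φ (f * g) = ord φ f + ord φ g)
    (hunit : ∀ φ ∈ disc x, ∀ f : B, φ f ≠ 0 → ord φ f = 0)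
    (hfac : ∀ φ ∈ disc x, ord φ (factor x φ) = 1)
    {y : B} (hy : y ≠ 0)
    {as : Multiset (B →ₐ[A] A)} {s g : B} (has : ∀ φ ∈ as, φ ∈ disc x) (hs : s ∉ x.N)
    (hg : g ∉ x.N) (hfact : s * y = g * (as.map (factor x)).prod) {φ : B →ₐ[A] A}
    (hφ : φ ∈ disc x) : ord φ y = (as.count φ : ℤ) := by
  have hs0 : s ≠ 0 := fun h => hs (by rw [h]; exact Ideal.zero_mem _)
  have hg0 : g ≠ 0 := fun h => hg (by rw [h]; exact Ideal.zero_mem _)
  have hprod : (as.map (factor x)).prod ≠ 0 := by
    intro h
    rw [h, mul_zero] at hfact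
    exact mul_ne_zero hs0 hy hfact
  have h1 : ord φ (s * y) = ord φ y := by
    rw [hmul φ hφ _ _ hs0 hy, hunit φ hφ s (map_ne_zero_of_notMem hφ hs), zero_add]
  have h2 : ord φ (g * (as.map (factor x)).prod) = (as.count φ : ℤ) := by
    rw [hmul φ hφ _ _ hg0 hprod, hunit φ hφ g (map_ne_zero_of_notMem hφ hg), zero_add,
      ord_prod_factor ord hB x hmul hunit hfac hφ as has hprod]
  rw [← h1, hfact, h2]

open Classical in
/-- **Conservation of zeros in a residue disc.**  Let `y ∉ 𝔪B` have order `m` at the point `x`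
of the special fibre (`s y ≡ t ^ m g` mod `𝔪B`, `s, g ∉ N`).  Then `y` has finitely many zeros in
the residue disc of `x`, and for every order function `ord` as above the sum of the orders of
`y` at these zeros is `m`. -/
theorem sum_ord_eq (L : Type*) [Field L] [Algebra A L] [IsFractionRing A L]
    [IsAlgClosed L] (hB : Chart A B) (x : Pt A B)
    (hmul : ∀ φ ∈ disc x, ∀ f g : B, f ≠ 0 → g ≠ 0 → ord φ (f * g) = ord φ f + ord φ g)
    (hunit : ∀ φ ∈ disc x, ∀ f : B, φ f ≠ 0 → ord φ f = 0)
    (hfac : ∀ φ ∈ disc x, ord φ (factor x φ) = 1)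
    {y : B} (hy : y ∉ mB A B) {m : ℕ} {s g : B} (hs : s ∉ x.N) (hg : g ∉ x.N)
    (h : s * y - x.t ^ m * g ∈ mB A B) :
    ∃ Z : Finset (B →ₐ[A] A), (∀ φ, φ ∈ Z ↔ φ ∈ disc x ∧ φ y = 0) ∧
      ∑ φ ∈ Z, ord φ y = m := by
  obtain ⟨as, s', g', has, hs', hg', hfact, hord⟩ := factorization L hB x hy
  have hm : Multiset.card as = m := order_unique hB x hy hs' hg' hs hg hord h
  have hy0 : y ≠ 0 := fun h0 => hy (by rw [h0]; exact Ideal.zero_mem _)
  refine ⟨as.toFinset, fun φ => ?_, ?_⟩
  · rw [Multiset.mem_toFinset]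
    constructor
    · intro hφ
      exact ⟨has φ hφ, (zero_iff_mem_of_factorization hB x has hs' hg' hfact (has φ hφ)).2 hφ⟩
    · rintro ⟨hφ, hφy⟩
      exact (zero_iff_mem_of_factorization hB x has hs' hg' hfact hφ).1 hφy
  · have h1 : ∀ φ ∈ as.toFinset, ord φ y = (as.count φ : ℤ) := by
      intro φ hφ
      exact ord_eq_count ord hB x hmul hunit hfac hy0 has hs' hg' hfact
        (has φ (Multiset.mem_toFinset.1 hφ))
    rw [Finset.sum_congr rfl h1, ← Nat.cast_sum, Multiset.toFinset_sum_count_eq, hm]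

end Ord


end Main

end Fermat.Agent.S37.H579.Arg
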