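import Fermat.Agent.S37.H579.GlueSep

/-!
# R-cd GLUE (helper579, row S37), part 4: the two-chart atlas and the place reduction map

`TwoCharts C` : two charts `D₀ ∋ x₀`, `D₁ ∋ x₁` of the model with `x₀ x₁ = 1` (`x₀ = j`,
`x₁ = 1/j`), with point data at every place `Q` of `F_k` (on `D₀` if `x̄₀` is regular at `Q`, on
`D₁` otherwise), integrality of the values (`val₀`, `val₁`) and centres (`center₀`, `center₁`).

`TwoCharts.exists_red` : the place reduction map `r` with the Prelude properties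
(i) `deg (r P) = deg P`, (ii) `r_* div u = div (ρ u)`, together with value compatibility on the
charts and the description of the fibres of `r` as tubes.
-/

set_option linter.unusedSectionVars false
set_option linter.style.haveILetI false
set_option autoImplicit false

noncomputable section

namespace Fermat.Agent.S37.H579.Glue

open AlgebraicCurve IsLocalRing Fermat.Agent.S37.H579.Arg Fermat.Agent.S37.H940
open Fermat.Agent.S24.FF

variable {K F k Fk : Type*} [Field K] [Field F] [Algebra K F] [Field k] [Field Fk]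
  [Algebra k Fk]

/-- Two charts covering the model. -/
structure TwoCharts (C : Ctx K F k Fk) where
  /-- the finite chart -/
  D₀ : ChartData C
  /-- the chart at infinity -/
  D₁ : ChartData C
  /-- the coordinate -/
  x₀ : D₀.B
  /-- the inverse coordinate -/
  x₁ : D₁.B
  hx : (x₀ : F) * (x₁ : F) = 1
  pd₀ : ∀ Q : Place k Fk, 0 ≤ Q.ord (D₀.red x₀) → PointData D₀ Q
  pd₁ : ∀ Q : Place k Fk, ¬ 0 ≤ Q.ord (D₀.red x₀) → PointData D₁ Q
  val₀ : ∀ (P : Place K F) (a : C.A), InMax P ((x₀ : F) - algebraMap K F (a : K)) →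
    ∀ b : D₀.B, ∃ a' : C.A, InMax P ((b : F) - algebraMap K F (a' : K))
  val₁ : ∀ (P : Place K F) (a : C.A), InMax P ((x₁ : F) - algebraMap K F (a : K)) →
    ¬ IsUnit a → ∀ b : D₁.B, ∃ a' : C.A, InMax P ((b : F) - algebraMap K F (a' : K))
  center₀ : ∀ φ : D₀.B →ₐ[C.A] C.A, ∃ Q : Place k Fk,
    ∀ b, InMax Q (D₀.red b - algebraMap k Fk (C.π (φ b)))
  center₁ : ∀ φ : D₁.B →ₐ[C.A] C.A, ¬ IsUnit (φ x₁) → ∃ Q : Place k Fk,
    ∀ b, InMax Q (D₁.red b - algebraMap k Fk (C.π (φ b)))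
  resK : ∀ (P : Place K F) (f : F), 0 ≤ P.ord f → ∃ c : K, InMax P (f - algebraMap K F c)

namespace TwoCharts

variable [IsAlgClosed K]
variable {C : Ctx K F k Fk} (T : TwoCharts C)

theorem red_mul : T.D₀.red T.x₀ * T.D₁.red T.x₁ = 1 := by
  rw [ChartData.red_apply, ChartData.red_apply, ← map_mul]
  have : T.D₀.toV T.x₀ * T.D₁.toV T.x₁ = 1 := Subtype.ext T.hx
  rw [this, map_one]

theorem red_x₀_ne_zero : T.D₀.red T.x₀ ≠ 0 := left_ne_zero_of_mul_eq_one T.red_mul

theorem red_x₁_ne_zero : T.D₁.red T.x₁ ≠ 0 := right_ne_zero_of_mul_eq_one T.red_mul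

theorem ord_red_x₁ (Q : Place k Fk) : Q.ord (T.D₁.red T.x₁) = - Q.ord (T.D₀.red T.x₀) := by
  have h := congrArg Q.ord T.red_mul
  rw [Q.ord_mul T.red_x₀_ne_zero T.red_x₁_ne_zero, Place.ord_one] at h
  omega

open Classical in
/-- the fibre over a place of `F_k` -/
def fibre (Q : Place k Fk) : Fibre C :=
  if h : 0 ≤ Q.ord (T.D₀.red T.x₀) then (T.pd₀ Q h).fibre else (T.pd₁ Q h).fibre

theorem fibre_𝔊 (Q : Place k Fk) : (T.fibre Q).𝔊 = {Q} := by
  unfold fibre
  split_ifs <;> rfl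

theorem fibre_𝔉_of_pos {Q : Place k Fk} (h : 0 ≤ Q.ord (T.D₀.red T.x₀)) :
    (T.fibre Q).𝔉 = (T.pd₀ Q h).tube := by
  unfold fibre
  rw [dif_pos h]
  rfl

theorem fibre_𝔉_of_neg {Q : Place k Fk} (h : ¬ 0 ≤ Q.ord (T.D₀.red T.x₀)) :
    (T.fibre Q).𝔉 = (T.pd₁ Q h).tube := by
  unfold fibre
  rw [dif_neg h]
  rfl

theorem inMax_red_x₁ {Q : Place k Fk} (h : ¬ 0 ≤ Q.ord (T.D₀.red T.x₀)) :
    InMax Q (T.D₁.red T.x₁) := by
  apply inMax_of_ord_pos
  rw [T.ord_red_x₁]
  omega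

/-- every place of `F` lies in the tube of some place of `F_k` -/
theorem cover (P : Place K F) : ∃ Q, P ∈ (T.fibre Q).𝔉 := by
  -- first case: `x₀` is regular at `P` with value in `A`
  by_cases h0 : ∃ a : C.A, InMax P ((T.x₀ : F) - algebraMap K F (a : K))
  · obtain ⟨a, ha⟩ := h0
    have hval := T.val₀ P a ha
    obtain ⟨Q, hQ⟩ := T.center₀ (pointOfValues T.D₀ P hval)
    have hreg : 0 ≤ Q.ord (T.D₀.red T.x₀) := ord_nonneg_of_inMax_sub (hQ T.x₀)
    refine ⟨Q, ?_⟩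
    rw [T.fibre_𝔉_of_pos hreg]
    apply (T.pd₀ Q hreg).mem_tube_of_values P
    intro b
    exact ⟨pointOfValues T.D₀ P hval b, pointOfValues_spec T.D₀ P hval b, hQ b⟩
  · -- second case: `x₁` has a value in the maximal ideal of `A`
    have hx₀0 : (T.x₀ : F) ≠ 0 := left_ne_zero_of_mul_eq_one T.hx
    have hx₁0 : (T.x₁ : F) ≠ 0 := right_ne_zero_of_mul_eq_one T.hx
    have hord : P.ord (T.x₁ : F) = - P.ord (T.x₀ : F) := by
      have h := congrArg P.ord T.hx
      rw [P.ord_mul hx₀0 hx₁0, Place.ord_one] at h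
      omega
    obtain ⟨a, ha, hau⟩ : ∃ a : C.A, InMax P ((T.x₁ : F) - algebraMap K F (a : K)) ∧
        ¬ IsUnit a := by
      by_cases hreg : 0 ≤ P.ord (T.x₀ : F)
      · obtain ⟨c, hc⟩ := T.resK P _ hreg
        have hcA : c ∉ C.A := fun hc' => h0 ⟨⟨c, hc'⟩, hc⟩
        obtain ⟨a, ha, hπ⟩ := C.exists_inv_of_not_mem hcA
        have hc0 : c ≠ 0 := fun h => hcA (h ▸ zero_mem _)
        refine ⟨a, ?_, (C.π_eq_zero a).1 hπ⟩
        have hx₀ord : P.ord (T.x₀ : F) = 0 := ord_eq_zero_of_inMax_sub hc hc0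
        have e : (T.x₁ : F) - algebraMap K F (a : K) =
            ((T.x₀ : F) - algebraMap K F c) * (algebraMap K F (-c⁻¹) * (T.x₁ : F)) := by
          have h1 : algebraMap K F c * algebraMap K F c⁻¹ = 1 := by
            rw [← map_mul, mul_inv_cancel₀ hc0, map_one]
          rw [ha, map_neg]
          linear_combination (algebraMap K F c⁻¹) * T.hx - (T.x₁ : F) * h1
        rw [e]
        refine hc.mul_of_ord_nonneg ?_
        refine ord_nonneg_mul (ord_nonneg_const P _) ?_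
        rw [hord, hx₀ord, neg_zero]
      · refine ⟨0, ?_, not_isUnit_zero⟩
        simp only [ZeroMemClass.coe_zero, map_zero, sub_zero]
        apply inMax_of_ord_pos
        rw [hord]
        omega
    have hval := T.val₁ P a ha hau
    have hφx : pointOfValues T.D₁ P hval T.x₁ = a :=
      Subtype.ext (value_unique (pointOfValues_spec T.D₁ P hval T.x₁) ha)
    obtain ⟨Q, hQ⟩ := T.center₁ (pointOfValues T.D₁ P hval) (by rw [hφx]; exact hau)
    have hneg : ¬ 0 ≤ Q.ord (T.D₀.red T.x₀) := by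
      have h1 := hQ T.x₁
      rw [hφx, (C.π_eq_zero a).2 hau, map_zero, sub_zero] at h1
      have h2 := h1.ord_pos T.red_x₁_ne_zero
      rw [T.ord_red_x₁] at h2
      omega
    refine ⟨Q, ?_⟩
    rw [T.fibre_𝔉_of_neg hneg]
    apply (T.pd₁ Q hneg).mem_tube_of_values P
    intro b
    exact ⟨pointOfValues T.D₁ P hval b, pointOfValues_spec T.D₁ P hval b, hQ b⟩

/-- the tubes are pairwise disjoint -/
theorem disj (Q Q' : Place k Fk) (P : Place K F) (h : P ∈ (T.fibre Q).𝔉)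
    (h' : P ∈ (T.fibre Q').𝔉) : Q = Q' := by
  by_cases hQ : 0 ≤ Q.ord (T.D₀.red T.x₀) <;> by_cases hQ' : 0 ≤ Q'.ord (T.D₀.red T.x₀)
  · rw [T.fibre_𝔉_of_pos hQ] at h
    rw [T.fibre_𝔉_of_pos hQ'] at h'
    exact tube_disjoint_same_chart _ _ h h'
  · rw [T.fibre_𝔉_of_pos hQ] at h
    rw [T.fibre_𝔉_of_neg hQ'] at h'
    exact (tube_disjoint_charts _ _ T.x₀ T.x₁ T.hx (T.inMax_red_x₁ hQ') h h').elim
  · rw [T.fibre_𝔉_of_neg hQ] at h
    rw [T.fibre_𝔉_of_pos hQ'] at h'
    exact (tube_disjoint_charts _ _ T.x₀ T.x₁ T.hx (T.inMax_red_x₁ hQ) h' h).elim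
  · rw [T.fibre_𝔉_of_neg hQ] at h
    rw [T.fibre_𝔉_of_neg hQ'] at h'
    exact tube_disjoint_same_chart _ _ h h'

/-- helper940's atlas attached to the two charts -/
def atlas : Atlas C (Place k Fk) where
  Φ := T.fibre
  cover := T.cover
  disj := fun Q Q' P h h' => T.disj Q Q' P h h'
  cover' := fun Q => ⟨Q, by rw [T.fibre_𝔊]; exact Finset.mem_singleton_self Q⟩
  disj' := fun i j Q hi hj => by
    rw [T.fibre_𝔊, Finset.mem_singleton] at hi hj
    rw [← hi, ← hj]

/-- **the place reduction map** -/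
def r : Place K F → Place k Fk := T.atlas.red

theorem mem_fibre_r (P : Place K F) : P ∈ (T.fibre (T.r P)).𝔉 := by
  obtain ⟨Q, hQ⟩ := T.cover P
  have h1 : T.atlas.red P ∈ (T.atlas.Φ Q).𝔊 := T.atlas.red_mem hQ
  have h2 : T.r P = Q := by
    have : (T.atlas.Φ Q).𝔊 = {Q} := T.fibre_𝔊 Q
    rw [this, Finset.mem_singleton] at h1
    exact h1
  rw [h2]
  exact hQ

theorem r_eq_iff (P : Place K F) (Q : Place k Fk) : T.r P = Q ↔ P ∈ (T.fibre Q).𝔉 := by
  constructor
  · rintro rfl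
    exact T.mem_fibre_r P
  · intro h
    exact T.disj _ _ P (T.mem_fibre_r P) h

include T in
/-- residues at all places of `F_k` lie in `k` -/
theorem resk (Q : Place k Fk) (g : Fk) (hg : 0 ≤ Q.ord g) :
    ∃ a : k, InMax Q (g - algebraMap k Fk a) := by
  by_cases h : 0 ≤ Q.ord (T.D₀.red T.x₀)
  · exact (T.pd₀ Q h).res g hg
  · exact (T.pd₁ Q h).res g hg

/-- (i): the reduction map preserves degrees -/
theorem deg_r (P : Place K F) : (T.r P).deg = P.deg := by
  rw [deg_eq_one_of_res P (T.resK P), deg_eq_one_of_res (T.r P) (T.resk _)]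

/-- (ii): **specialisation of principal divisors**, `r_* div u = div (ρ u)` -/
theorem mapDomain_r [Infinite k] (u : C.V) (hu : C.ρ u ≠ 0) (D : Divisor K F)
    (hD : ∀ P, D P = P.ord (u : F)) (Q : Place k Fk) :
    Finsupp.mapDomain T.r D Q = Q.ord (C.ρ u) :=
  T.atlas.mapDomain_red u hu D hD Q

/-- the values of `x₀` and `x₁` at a place are inverse to each other -/
theorem value_mul_eq_one {P : Place K F} {a₀ a₁ : C.A}
    (h0 : InMax P ((T.x₀ : F) - algebraMap K F (a₀ : K)))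
    (h1 : InMax P ((T.x₁ : F) - algebraMap K F (a₁ : K))) : a₀ * a₁ = 1 := by
  have h2 : InMax P ((1 : F) - algebraMap K F (((a₀ * a₁ : C.A)) : K)) := by
    have e : (1 : F) - algebraMap K F (((a₀ * a₁ : C.A)) : K) =
        ((T.x₀ : F) - algebraMap K F (a₀ : K)) * (T.x₁ : F) +
          algebraMap K F (a₀ : K) * ((T.x₁ : F) - algebraMap K F (a₁ : K)) := by
      have e1 : (((a₀ * a₁ : C.A)) : K) = (a₀ : K) * (a₁ : K) := rfl
      rw [e1, map_mul, ← T.hx]
      ring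
    rw [e]
    exact (h0.mul_of_ord_nonneg (ord_nonneg_of_inMax_sub h1)).add (h1.const_mul _)
  have h3 : InMax P ((1 : F) - algebraMap K F (1 : K)) := by
    rw [map_one, sub_self]; exact inMax_zero P
  exact Subtype.ext (value_unique h2 h3)

/-- a place at which `x₀` has a value in `A` reduces to a place on the chart `D₀` -/
theorem r_chart₀ {P : Place K F} {a₀ : C.A}
    (h0 : InMax P ((T.x₀ : F) - algebraMap K F (a₀ : K))) :
    0 ≤ (T.r P).ord (T.D₀.red T.x₀) := by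
  by_contra hneg
  have hP := T.mem_fibre_r P
  rw [T.fibre_𝔉_of_neg hneg] at hP
  obtain ⟨φ, hφ, hφP⟩ := (T.pd₁ _ hneg).exists_point_of_mem_tube hP
  have h1 : φ T.x₁ ∈ maximalIdeal C.A := hφ T.x₁ (T.inMax_red_x₁ hneg)
  have h2 := T.value_mul_eq_one h0 (hφP T.x₁)
  exact (IsLocalRing.mem_maximalIdeal _).1 h1
    (IsUnit.of_mul_eq_one a₀ (by rw [mul_comm]; exact h2))

/-- a place at which `x₁` has a value in the maximal ideal of `A` reduces to a place on `D₁` -/
theorem r_chart₁ {P : Place K F} {a₁ : C.A}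
    (h1 : InMax P ((T.x₁ : F) - algebraMap K F (a₁ : K))) (hu : ¬ IsUnit a₁) :
    ¬ 0 ≤ (T.r P).ord (T.D₀.red T.x₀) := by
  intro hpos
  have hP := T.mem_fibre_r P
  rw [T.fibre_𝔉_of_pos hpos] at hP
  obtain ⟨φ, hφ, hφP⟩ := (T.pd₀ _ hpos).exists_point_of_mem_tube hP
  have h2 := T.value_mul_eq_one (hφP T.x₀) h1
  exact hu (IsUnit.of_mul_eq_one (φ T.x₀) (by rw [mul_comm]; exact h2))

/-- **value compatibility on the finite chart**: if `x₀` has a value in `A` at `P` and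
`b ∈ B₀` has the value `a` at `P`, then `ρ b` has the value `π a` at `r P`. -/
theorem r_value₀ {P : Place K F} {a₀ : C.A}
    (h0 : InMax P ((T.x₀ : F) - algebraMap K F (a₀ : K))) (b : T.D₀.B) {a : C.A}
    (hb : InMax P ((b : F) - algebraMap K F (a : K))) :
    InMax (T.r P) (T.D₀.red b - algebraMap k Fk (C.π a)) := by
  have hpos := T.r_chart₀ h0
  have hP := T.mem_fibre_r P
  rw [T.fibre_𝔉_of_pos hpos] at hP
  obtain ⟨φ, hφ, hφP⟩ := (T.pd₀ _ hpos).exists_point_of_mem_tube hP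
  have : φ b = a := Subtype.ext (value_unique (hφP b) hb)
  rw [← this]
  exact (T.pd₀ _ hpos).values_of_mem_disc hφ b

/-- **value compatibility on the chart at infinity** -/
theorem r_value₁ {P : Place K F} {a₁ : C.A}
    (h1 : InMax P ((T.x₁ : F) - algebraMap K F (a₁ : K))) (hu : ¬ IsUnit a₁) (b : T.D₁.B)
    {a : C.A} (hb : InMax P ((b : F) - algebraMap K F (a : K))) :
    InMax (T.r P) (T.D₁.red b - algebraMap k Fk (C.π a)) := by
  have hneg := T.r_chart₁ h1 hu
  have hP := T.mem_fibre_r P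
  rw [T.fibre_𝔉_of_neg hneg] at hP
  obtain ⟨φ, hφ, hφP⟩ := (T.pd₁ _ hneg).exists_point_of_mem_tube hP
  have : φ b = a := Subtype.ext (value_unique (hφP b) hb)
  rw [← this]
  exact (T.pd₁ _ hneg).values_of_mem_disc hφ b

/-- **separation on the finite chart** -/
theorem sep₀ {Q Q' : Place k Fk} (hQ : 0 ≤ Q.ord (T.D₀.red T.x₀))
    (h : ∀ (b : T.D₀.B) (c : k), InMax Q (T.D₀.red b - algebraMap k Fk c) →
      InMax Q' (T.D₀.red b - algebraMap k Fk c)) : Q = Q' :=
  (T.pd₀ Q hQ).eq_of_values Q' h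

/-- **separation on the chart at infinity** -/
theorem sep₁ {Q Q' : Place k Fk} (hQ : ¬ 0 ≤ Q.ord (T.D₀.red T.x₀))
    (h : ∀ (b : T.D₁.B) (c : k), InMax Q (T.D₁.red b - algebraMap k Fk c) →
      InMax Q' (T.D₁.red b - algebraMap k Fk c)) : Q = Q' :=
  (T.pd₁ Q hQ).eq_of_values Q' h

include T in
/-- **The place reduction map exists** (Prelude shape of `IsPlaceReductionAlong`). -/
theorem exists_red [Infinite k] :
    ∃ r : Place K F → Place k Fk,
      (∀ P, (r P).deg = P.deg) ∧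
      (∀ u : C.V, C.ρ u ≠ 0 → ∀ D : Divisor K F, (∀ P, D P = P.ord (u : F)) →
        ∀ Q, Finsupp.mapDomain r D Q = Q.ord (C.ρ u)) :=
  ⟨T.r, T.deg_r, fun u hu D hD Q => T.mapDomain_r u hu D hD Q⟩


end TwoCharts

end Fermat.Agent.S37.H579.Glue
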