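import Fermat.Agent.S37.H579.GlueAtlas
import Fermat.Agent.Lib.FF.PrimePlace

/-!
# R-cd GLUE (helper579, row S37), part 5: point data from a Dedekind special fibre

If the reduction `ρ(B)` of a chart is (the image of) a Dedekind domain `S` with fraction field
`F_k` and residue fields `k` (i.e. the special fibre of the chart is a normal affine curve), then
* every place `Q` of `F_k` with `S ⊂ O_Q` carries a `PointData` (`SpecialFibre.pointData`);
* every `A`-point of the chart reduces to such a place (`SpecialFibre.center`).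
These are the inputs `pd₀/pd₁`, `center₀/center₁` of `TwoCharts`.
-/

set_option linter.unusedSectionVars false
set_option linter.style.haveILetI false
set_option autoImplicit false

noncomputable section

namespace Fermat.Agent.S37.H579.Glue

open AlgebraicCurve IsLocalRing IsDedekindDomain Fermat.Agent.S37.H579.Arg Fermat.Agent.S37.H940
open Fermat.Agent.S24.FF

variable {K F k Fk : Type*} [Field K] [Field F] [Algebra K F] [Field k] [Field Fk]
  [Algebra k Fk]

/-- The special fibre of the chart `D` is the Dedekind domain `S`. -/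
structure SpecialFibre {C : Ctx K F k Fk} (D : ChartData C) (S : Type*) [CommRing S]
    [IsDedekindDomain S] [Algebra S Fk] [IsFractionRing S Fk] [Algebra k S]
    [IsScalarTower k S Fk] where
  /-- the reduction map onto the coordinate ring of the special fibre -/
  σ : D.B →+* S
  surj : Function.Surjective σ
  comp : ∀ b, algebraMap S Fk (σ b) = D.red b
  res : ∀ (q : HeightOneSpectrum S) (s : S), ∃ c : k, s - algebraMap k S c ∈ q.asIdeal
  notField : ¬ IsField S

namespace SpecialFibre

variable {C : Ctx K F k Fk} {D : ChartData C} {S : Type*} [CommRing S]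
  [IsDedekindDomain S] [Algebra S Fk] [IsFractionRing S Fk] [Algebra k S]
  [IsScalarTower k S Fk] (Y : SpecialFibre D S)

section

variable (Q : Place k Fk) (hQ : ∀ s : S, algebraMap S Fk s ∈ Q.toValuationSubring)

omit [Algebra k S] [IsScalarTower k S Fk] [IsDedekindDomain S] in
include hQ in
theorem ord_nonneg (s : S) : 0 ≤ Q.ord (algebraMap S Fk s) := ord_nonneg_of_mem Q (hQ s)

theorem algebraMap_ne_zero {s : S} (hs : s ≠ 0) : algebraMap S Fk s ≠ 0 :=
  (map_ne_zero_iff _ (IsFractionRing.injective S Fk)).mpr hs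

/-- the centre of a place on the chart is a nonzero prime -/
theorem center_ne_bot : Lib.FF.center Q hQ ≠ ⊥ := by
  intro hbot
  apply Q.ne_top'
  rw [eq_top_iff]
  intro f _
  obtain ⟨n, d, hd, rfl⟩ := IsFractionRing.div_surjective (A := S) f
  have hd0 : (d : S) ≠ 0 := nonZeroDivisors.ne_zero hd
  have hd' : d ∉ Lib.FF.center Q hQ := by rw [hbot]; exact hd0
  have hordd : Q.ord (algebraMap S Fk d) = 0 := by
    have h1 := ord_nonneg_of_mem Q (hQ d)
    have h2 : ¬ 0 < Q.ord (algebraMap S Fk d) := fun h =>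
      hd' ((Lib.FF.mem_center_iff_ord_pos Q hQ hd0).2 h)
    omega
  apply mem_of_ord_nonneg
  by_cases hn : n = 0
  · rw [hn, map_zero, zero_div, Place.ord_zero]
  rw [div_eq_mul_inv, Q.ord_mul (algebraMap_ne_zero hn)
    (inv_ne_zero (algebraMap_ne_zero hd0)), Place.ord_inv, hordd, neg_zero, add_zero]
  exact ord_nonneg_of_mem Q (hQ n)

/-- the centre as a height one prime -/
def centerPrime : HeightOneSpectrum S :=
  ⟨Lib.FF.center Q hQ, inferInstance, center_ne_bot Q hQ⟩

theorem placeOf_centerPrime : Lib.FF.placeOf k (centerPrime Q hQ) = Q :=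
  Lib.FF.placeOf_center Q hQ (center_ne_bot Q hQ)

end

section PD

variable (Q : Place k Fk) (hQ : ∀ s : S, algebraMap S Fk s ∈ Q.toValuationSubring)
include Y hQ

/-- residues at a place on the chart lie in `k` -/
theorem res_place {g : Fk} (hg : 0 ≤ Q.ord g) : ∃ c : k, InMax Q (g - algebraMap k Fk c) := by
  have hg' : g ∈ (Lib.FF.placeOf k (centerPrime Q hQ) : Place k Fk).toValuationSubring := by
    rw [placeOf_centerPrime]
    exact mem_of_ord_nonneg Q hg
  rw [Lib.FF.mem_placeOf_iff] at hg'
  obtain ⟨n, d, hnd⟩ := HeightOneSpectrum.exists_primeCompl_mul_eq_of_integer _ g hg'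
  have hd : (d : S) ∉ Lib.FF.center Q hQ := d.2
  obtain ⟨cn, hcn⟩ := Y.res (centerPrime Q hQ) n
  obtain ⟨cd, hcd⟩ := Y.res (centerPrime Q hQ) d
  have hcd0 : cd ≠ 0 := by
    rintro rfl
    rw [map_zero, sub_zero] at hcd
    exact hd hcd
  have hd0 : (d : S) ≠ 0 := fun h => hd (by rw [h]; exact Ideal.zero_mem _)
  have hordd : Q.ord (algebraMap S Fk d) = 0 := by
    have h1 := ord_nonneg_of_mem Q (hQ d)
    have h2 : ¬ 0 < Q.ord (algebraMap S Fk d) := fun h =>
      hd ((Lib.FF.mem_center_iff_ord_pos Q hQ hd0).2 h)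
    omega
  refine ⟨cn / cd, ?_⟩
  -- e := (n - cn) - (cn/cd) • (d - cd) ∈ centre, and (g - c) d = e
  set e : S := (n - algebraMap k S cn) - algebraMap k S (cn / cd) * ((d : S) - algebraMap k S cd)
    with he
  have hemem : e ∈ Lib.FF.center Q hQ :=
    Ideal.sub_mem _ hcn (Ideal.mul_mem_left _ _ hcd)
  have hrel : (g - algebraMap k Fk (cn / cd)) * algebraMap S Fk d = algebraMap S Fk e := by
    have h1 : algebraMap S Fk (algebraMap k S cn) = algebraMap k Fk cn :=
      (IsScalarTower.algebraMap_apply k S Fk cn).symm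
    have h2 : algebraMap S Fk (algebraMap k S cd) = algebraMap k Fk cd :=
      (IsScalarTower.algebraMap_apply k S Fk cd).symm
    have h3 : algebraMap S Fk (algebraMap k S (cn / cd)) = algebraMap k Fk (cn / cd) :=
      (IsScalarTower.algebraMap_apply k S Fk _).symm
    have h4 : algebraMap k Fk (cn / cd) * algebraMap k Fk cd = algebraMap k Fk cn := by
      rw [← map_mul, div_mul_cancel₀ _ hcd0]
    rw [he, map_sub, map_sub, map_mul, map_sub, h1, h2, h3, ← hnd]
    linear_combination (-1 : Fk) * h4
  by_cases hf0 : g - algebraMap k Fk (cn / cd) = 0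
  · rw [hf0]; exact inMax_zero Q
  have he0 : e ≠ 0 := by
    intro h0
    rw [h0, map_zero] at hrel
    rcases mul_eq_zero.1 hrel with h | h
    · exact hf0 h
    · exact algebraMap_ne_zero hd0 h
  have h5 := congrArg Q.ord hrel
  rw [Q.ord_mul hf0 (algebraMap_ne_zero hd0), hordd, add_zero] at h5
  apply inMax_of_ord_pos
  rw [h5]
  exact (Lib.FF.mem_center_iff_ord_pos Q hQ he0).1 hemem

/-- **point data at a place on a chart with Dedekind special fibre** -/
def pointData : PointData D Q := by
  classical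
  have hunif : ∃ t : D.B, Q.ord (D.red t) = 1 := by
    obtain ⟨π, hπ⟩ := (centerPrime Q hQ).intValuation_exists_uniformizer
    obtain ⟨t, rfl⟩ := Y.surj π
    refine ⟨t, ?_⟩
    rw [← Y.comp, ← placeOf_centerPrime Q hQ, Lib.FF.ord_placeOf,
      HeightOneSpectrum.valuation_of_algebraMap, hπ]
    simp
  exact
    { reg := fun b => by
        rw [← Y.comp]
        exact ord_nonneg_of_mem Q (hQ _)
      res := fun g hg => Y.res_place Q hQ hg
      t := hunif.choose
      ht := hunif.choose_spec
      gen := fun g hg0 hg => by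
        have hg' : g ∈ (Lib.FF.placeOf k (centerPrime Q hQ) : Place k Fk).toValuationSubring := by
          rw [placeOf_centerPrime]
          exact mem_of_ord_nonneg Q hg.ge
        rw [Lib.FF.mem_placeOf_iff] at hg'
        obtain ⟨n, d, hnd⟩ := HeightOneSpectrum.exists_primeCompl_mul_eq_of_integer _ g hg'
        have hd : (d : S) ∉ Lib.FF.center Q hQ := d.2
        have hd0 : (d : S) ≠ 0 := fun h => hd (by rw [h]; exact Ideal.zero_mem _)
        have hordd : Q.ord (algebraMap S Fk d) = 0 := by
          have h1 := ord_nonneg_of_mem Q (hQ d)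
          have h2 : ¬ 0 < Q.ord (algebraMap S Fk d) := fun h =>
            hd ((Lib.FF.mem_center_iff_ord_pos Q hQ hd0).2 h)
          omega
        obtain ⟨b, hb⟩ := Y.surj n
        obtain ⟨s, hs⟩ := Y.surj d
        refine ⟨b, s, ?_, ?_, ?_⟩
        · rw [← Y.comp, hs]; exact algebraMap_ne_zero hd0
        · rw [← Y.comp, hs]; exact hordd
        · rw [← Y.comp, ← Y.comp, hs, hb]; exact hnd }

end PD


section Center

include Y

theorem σ_algebraMap (a : C.A) : Y.σ (algebraMap C.A D.B a) = algebraMap k S (C.π a) := by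
  apply IsFractionRing.injective S Fk
  rw [Y.comp, D.red_algebraMap, ← IsScalarTower.algebraMap_apply]

theorem σ_eq_zero_iff (b : D.B) : Y.σ b = 0 ↔ b ∈ mB C.A D.B := by
  rw [← D.red_eq_zero_iff, ← Y.comp]
  constructor
  · intro h; rw [h, map_zero]
  · intro h; exact IsFractionRing.injective S Fk (by rw [h, map_zero])

/-- the `k`-point of the special fibre defined by an `A`-point of the chart -/
def redPoint (φ : D.B →ₐ[C.A] C.A) : S →+* k :=
  RingHom.liftOfSurjective Y.σ Y.surj ⟨C.π.comp φ.toRingHom, by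
    intro b hb
    rw [RingHom.mem_ker] at hb ⊢
    have h1 := map_mem_of_mem_mB φ ((Y.σ_eq_zero_iff b).1 hb)
    rw [RingHom.comp_apply, C.π_eq_zero]
    exact (IsLocalRing.mem_maximalIdeal _).1 h1⟩

theorem redPoint_σ (φ : D.B →ₐ[C.A] C.A) (b : D.B) : Y.redPoint φ (Y.σ b) = C.π (φ b) := by
  unfold redPoint
  rw [RingHom.liftOfRightInverse_comp_apply]
  rfl

theorem redPoint_algebraMap (φ : D.B →ₐ[C.A] C.A) (c : k) :
    Y.redPoint φ (algebraMap k S c) = c := by
  obtain ⟨a, rfl⟩ := C.π_surj c
  rw [← Y.σ_algebraMap, Y.redPoint_σ, AlgHom.commutes]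
  rfl

theorem redPoint_surjective (φ : D.B →ₐ[C.A] C.A) : Function.Surjective (Y.redPoint φ) :=
  fun c => ⟨algebraMap k S c, Y.redPoint_algebraMap φ c⟩

/-- the prime of the special fibre defined by an `A`-point of the chart -/
def redPrime (φ : D.B →ₐ[C.A] C.A) : HeightOneSpectrum S :=
  haveI : (RingHom.ker (Y.redPoint φ)).IsMaximal :=
    RingHom.ker_isMaximal_of_surjective _ (Y.redPoint_surjective φ)
  ⟨RingHom.ker (Y.redPoint φ), inferInstance,
    Ring.ne_bot_of_isMaximal_of_not_isField inferInstance Y.notField⟩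

/-- **centre**: every `A`-point of the chart reduces to a place of `F_k` on the chart -/
theorem center (φ : D.B →ₐ[C.A] C.A) :
    ∃ Q : Place k Fk, (∀ s : S, algebraMap S Fk s ∈ Q.toValuationSubring) ∧
      ∀ b, InMax Q (D.red b - algebraMap k Fk (C.π (φ b))) := by
  refine ⟨Lib.FF.placeOf k (Y.redPrime φ), Lib.FF.algebraMap_mem_placeOf _, fun b => ?_⟩
  have e : D.red b - algebraMap k Fk (C.π (φ b)) =
      algebraMap S Fk (Y.σ b - algebraMap k S (C.π (φ b))) := by
    rw [map_sub, Y.comp, ← IsScalarTower.algebraMap_apply]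
  rw [e]
  set s' : S := Y.σ b - algebraMap k S (C.π (φ b)) with hs'
  have hmem : s' ∈ (Y.redPrime φ).asIdeal := by
    show s' ∈ RingHom.ker (Y.redPoint φ)
    rw [RingHom.mem_ker, hs', map_sub, Y.redPoint_σ, Y.redPoint_algebraMap, sub_self]
  by_cases h0 : s' = 0
  · rw [h0, map_zero]; exact inMax_zero _
  apply inMax_of_ord_pos
  rw [← Lib.FF.mem_center_iff_ord_pos _ (Lib.FF.algebraMap_mem_placeOf _) h0,
    Lib.FF.center_placeOf]
  exact hmem

end Center


end SpecialFibre

end Fermat.Agent.S37.H579.Glue
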