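import Fermat.Agent.S37.H579.ArgAdapt
import Fermat.Prelude.Def_AlgebraicCurve_DivisorClassGroup

/-!
# R-cd GLUE (helper579, row S37), part 1: the place of an `A`-point of a residue disc
-/

set_option linter.unusedSectionVars false
set_option linter.style.haveILetI false
set_option autoImplicit false

noncomputable section

namespace Fermat.Agent.S37.H579.Glue

open AlgebraicCurve IsLocalRing Fermat.Agent.S37.H579.Arg

variable {K F : Type*} [Field K] [Field F] [Algebra K F]
variable {A : ValuationSubring K}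
variable {B : Type*} [CommRing B] [IsDomain B] [Algebra A B] [Algebra B F] [IsScalarTower A B F]

/-- The local ring of the generic fibre at the `A`-point `φ`, as a subring of `F`. -/
def localRing (φ : B →ₐ[A] A) : Subring F where
  carrier := {f | ∃ b s : B, φ s ≠ 0 ∧ f * algebraMap B F s = algebraMap B F b}
  mul_mem' := by
    rintro f g ⟨b, s, hs, h⟩ ⟨b', s', hs', h'⟩
    refine ⟨b * b', s * s', ?_, ?_⟩
    · rw [map_mul]; exact mul_ne_zero hs hs'
    · rw [map_mul, map_mul, ← h, ← h']; ring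
  one_mem' := ⟨1, 1, by rw [map_one]; exact one_ne_zero, by simp⟩
  add_mem' := by
    rintro f g ⟨b, s, hs, h⟩ ⟨b', s', hs', h'⟩
    refine ⟨b * s' + b' * s, s * s', ?_, ?_⟩
    · rw [map_mul]; exact mul_ne_zero hs hs'
    · rw [map_mul, map_add, map_mul, map_mul, ← h, ← h']; ring
  zero_mem' := ⟨0, 1, by rw [map_one]; exact one_ne_zero, by simp⟩
  neg_mem' := by
    rintro f ⟨b, s, hs, h⟩
    exact ⟨-b, s, hs, by rw [map_neg, ← h]; ring⟩

theorem mem_localRing {φ : B →ₐ[A] A} {f : F} :
    f ∈ localRing (F := F) φ ↔ ∃ b s : B, φ s ≠ 0 ∧ f * algebraMap B F s = algebraMap B F b :=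
  Iff.rfl

theorem algebraMap_mem_localRing (φ : B →ₐ[A] A) (b : B) :
    algebraMap B F b ∈ localRing (F := F) φ :=
  ⟨b, 1, by rw [map_one]; exact one_ne_zero, by simp⟩

/-- units of the local ring at `φ` -/
def IsLocUnit (φ : B →ₐ[A] A) (f : F) : Prop :=
  ∃ b s : B, φ b ≠ 0 ∧ φ s ≠ 0 ∧ f * algebraMap B F s = algebraMap B F b

section LocUnit

variable {φ : B →ₐ[A] A} (hinj : Function.Injective (algebraMap B F))
include hinj

theorem algebraMap_ne_zero_of_map_ne_zero {b : B} (hb : φ b ≠ 0) : algebraMap B F b ≠ 0 := by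
  intro h
  apply hb
  have : b = 0 := hinj (by rw [h, map_zero])
  rw [this, map_zero]

theorem IsLocUnit.ne_zero {f : F} (h : IsLocUnit φ f) : f ≠ 0 := by
  obtain ⟨b, s, hb, hs, h⟩ := h
  rintro rfl
  rw [zero_mul] at h
  exact algebraMap_ne_zero_of_map_ne_zero hinj hb h.symm

omit hinj in
theorem IsLocUnit.mem {f : F} (h : IsLocUnit φ f) : f ∈ localRing (F := F) φ := by
  obtain ⟨b, s, hb, hs, h⟩ := h
  exact ⟨b, s, hs, h⟩

omit hinj in
theorem IsLocUnit.mul {f g : F} (hf : IsLocUnit φ f) (hg : IsLocUnit φ g) :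
    IsLocUnit φ (f * g) := by
  obtain ⟨b, s, hb, hs, h⟩ := hf
  obtain ⟨b', s', hb', hs', h'⟩ := hg
  refine ⟨b * b', s * s', ?_, ?_, ?_⟩
  · rw [map_mul]; exact mul_ne_zero hb hb'
  · rw [map_mul]; exact mul_ne_zero hs hs'
  · rw [map_mul, map_mul, ← h, ← h']; ring

theorem IsLocUnit.inv {f : F} (hf : IsLocUnit φ f) : IsLocUnit φ f⁻¹ := by
  have hf0 := hf.ne_zero hinj
  obtain ⟨b, s, hb, hs, h⟩ := hf
  refine ⟨s, b, hs, hb, ?_⟩
  rw [← h]
  field_simp

omit hinj in
theorem isLocUnit_algebraMap {b : B} (hb : φ b ≠ 0) : IsLocUnit φ (algebraMap B F b) :=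
  ⟨b, 1, hb, by rw [map_one]; exact one_ne_zero, by simp⟩

omit hinj in
theorem isLocUnit_one : IsLocUnit φ (1 : F) :=
  ⟨1, 1, by rw [map_one]; exact one_ne_zero, by rw [map_one]; exact one_ne_zero, by simp⟩

theorem IsLocUnit.inv_mem {f : F} (hf : IsLocUnit φ f) : f⁻¹ ∈ localRing (F := F) φ :=
  (hf.inv hinj).mem

end LocUnit

section Factor

variable [IsAlgClosed K]
variable {φ : B →ₐ[A] A} (hinj : Function.Injective (algebraMap B F))
variable (hB : Chart A B) (x : Pt A B) (hφ : φ ∈ disc x)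
include hinj hB hφ

omit [IsAlgClosed K] hinj in
/-- product of local factors = local unit times a power of the factor of `φ` -/
theorem prod_factor_eq (as : Multiset (B →ₐ[A] A)) (has : ∀ ψ ∈ as, ψ ∈ disc x) :
    ∃ (n : ℕ) (u : F), IsLocUnit φ u ∧
      algebraMap B F (as.map (factor x)).prod = u * algebraMap B F (factor x φ) ^ n := by
  classical
  induction as using Multiset.induction_on with
  | empty => exact ⟨0, 1, isLocUnit_one, by simp⟩
  | cons ψ as ih =>
    obtain ⟨n, u, hu, h⟩ := ih (fun χ hχ => has χ (Multiset.mem_cons_of_mem hχ))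
    have hψ : ψ ∈ disc x := has ψ (Multiset.mem_cons_self ψ as)
    rw [Multiset.map_cons, Multiset.prod_cons, map_mul, h]
    by_cases hψφ : φ = ψ
    · subst hψφ
      exact ⟨n + 1, u, hu, by ring⟩
    · refine ⟨n, algebraMap B F (factor x ψ) * u, ?_, by ring⟩
      exact (isLocUnit_algebraMap
        (fun h0 => hψφ ((map_factor_eq_zero_iff hB x hφ hψ).1 h0))).mul hu

theorem exists_locUnit_pow {b : B} (hb : b ≠ 0) :
    ∃ (n : ℕ) (u : F), IsLocUnit φ u ∧
      algebraMap B F b = u * algebraMap B F (factor x φ) ^ n := by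
  obtain ⟨c, hc, b', hb', rfl⟩ := hB.content b hb
  obtain ⟨as, s, g, has, hs, hg, hfac, -⟩ := factorization K hB x hb'
  obtain ⟨n, u, hu, h⟩ := prod_factor_eq (F := F) hB x hφ as has
  have hφs : φ s ≠ 0 := map_ne_zero_of_notMem hφ hs
  have hφg : φ g ≠ 0 := map_ne_zero_of_notMem hφ hg
  have hs0 : algebraMap B F s ≠ 0 := algebraMap_ne_zero_of_map_ne_zero hinj hφs
  have hc' : φ (algebraMap A B c) ≠ 0 := by
    rw [AlgHom.commutes]
    exact hc
  refine ⟨n, algebraMap B F (algebraMap A B c) * ((algebraMap B F s)⁻¹ * algebraMap B F g * u),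
    ?_, ?_⟩
  · exact (isLocUnit_algebraMap hc').mul
      ((((isLocUnit_algebraMap hφs).inv hinj).mul (isLocUnit_algebraMap hφg)).mul hu)
  · have h1 : algebraMap B F s * algebraMap B F b' =
        algebraMap B F g * (u * algebraMap B F (factor x φ) ^ n) := by
      rw [← map_mul, hfac, map_mul, h]
    rw [Algebra.smul_def, map_mul]
    have h2 : algebraMap B F b' =
        (algebraMap B F s)⁻¹ * (algebraMap B F g * (u * algebraMap B F (factor x φ) ^ n)) := by
      rw [← h1]
      field_simp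
    rw [h2]
    ring

end Factor

section PlaceOf

variable [IsAlgClosed K]
variable {φ : B →ₐ[A] A} (hinj : Function.Injective (algebraMap B F))
variable (hfrac : ∀ f : F, ∃ b₁ b₂ : B, b₂ ≠ 0 ∧ f * algebraMap B F b₂ = algebraMap B F b₁)
variable (hB : Chart A B) (x : Pt A B) (ht : x.t ∉ mB A B) (hφ : φ ∈ disc x)

include ht hφ in
theorem factor_ne_zero : factor x φ ≠ 0 := by
  intro h
  apply ht
  have : x.t = algebraMap A B (φ x.t) := by
    unfold factor at h
    exact sub_eq_zero.1 h
  rw [this]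
  exact algebraMap_mem_mB (hφ _ x.t_mem)

include hinj in
/-- `π · g` is never a local unit for `g` in the local ring -/
theorem not_isLocUnit_factor_mul {g : F} (hg : g ∈ localRing (F := F) φ) :
    ¬ IsLocUnit φ (algebraMap B F (factor x φ) * g) := by
  rintro ⟨b, s, hb, hs, h⟩
  obtain ⟨b', s', hs', h'⟩ := hg
  have h1 : algebraMap B F (factor x φ * b' * s) = algebraMap B F (b * s') := by
    rw [map_mul, map_mul, map_mul, ← h', ← h]
    ring
  have h2 := hinj h1
  have h3 : φ (factor x φ * b' * s) = 0 := by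
    rw [map_mul, map_mul, map_factor_self, zero_mul, zero_mul]
  rw [h2, map_mul] at h3
  exact mul_ne_zero hb hs' h3

include hinj hfrac hB ht hφ in
/-- every nonzero function is a local unit times a power of the local factor -/
theorem exists_locUnit_zpow {f : F} (hf : f ≠ 0) :
    ∃ (n : ℤ) (u : F), IsLocUnit φ u ∧ f = u * algebraMap B F (factor x φ) ^ n := by
  obtain ⟨b₁, b₂, hb₂, h⟩ := hfrac f
  have hb₂' : algebraMap B F b₂ ≠ 0 := fun h0 => hb₂ (hinj (by rw [h0, map_zero]))
  have hb₁ : b₁ ≠ 0 := by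
    rintro rfl
    rw [map_zero] at h
    rcases mul_eq_zero.1 h with h1 | h1
    · exact hf h1
    · exact hb₂' h1
  obtain ⟨n₁, u₁, hu₁, h₁⟩ := exists_locUnit_pow (F := F) hinj hB x hφ hb₁
  obtain ⟨n₂, u₂, hu₂, h₂⟩ := exists_locUnit_pow (F := F) hinj hB x hφ hb₂
  have hπ : algebraMap B F (factor x φ) ≠ 0 := fun h0 =>
    factor_ne_zero x ht hφ (hinj (by rw [h0, map_zero]))
  have hu₂0 := hu₂.ne_zero hinj
  refine ⟨(n₁ : ℤ) - n₂, u₁ * u₂⁻¹, hu₁.mul (hu₂.inv hinj), ?_⟩
  have h3 : f = algebraMap B F b₁ * (algebraMap B F b₂)⁻¹ := by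
    rw [← h]
    field_simp
  rw [h3, h₁, h₂, zpow_sub₀ hπ, zpow_natCast, zpow_natCast]
  field_simp

include hinj in
/-- membership in the local ring forces a nonnegative exponent -/
theorem exponent_nonneg {n : ℤ} {u : F} (hu : IsLocUnit φ u)
    (hmem : u * algebraMap B F (factor x φ) ^ n ∈ localRing (F := F) φ)
    (hπ : algebraMap B F (factor x φ) ≠ 0) : 0 ≤ n := by
  by_contra hn
  push Not at hn
  obtain ⟨m, hm⟩ : ∃ m : ℕ, n = -((m : ℤ) + 1) := ⟨(-n - 1).toNat, by omega⟩
  -- π * (π ^ m * (u * π ^ n)) = u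
  have h1 : algebraMap B F (factor x φ) *
      (algebraMap B F (factor x φ) ^ m * (u * algebraMap B F (factor x φ) ^ n)) = u := by
    rw [hm, zpow_neg, zpow_add₀ hπ, zpow_natCast, zpow_one]
    field_simp
  have h2 : algebraMap B F (factor x φ) ^ m * (u * algebraMap B F (factor x φ) ^ n) ∈
      localRing (F := F) φ :=
    Subring.mul_mem _ (Subring.pow_mem _ (algebraMap_mem_localRing φ _) _) hmem
  exact not_isLocUnit_factor_mul hinj x h2 (by rw [h1]; exact hu)

include hinj hfrac hB ht hφ in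
theorem mem_or_inv_mem_localRing (f : F) :
    f ∈ localRing (F := F) φ ∨ f⁻¹ ∈ localRing (F := F) φ := by
  by_cases hf : f = 0
  · left; rw [hf]; exact Subring.zero_mem _
  obtain ⟨n, u, hu, rfl⟩ := exists_locUnit_zpow hinj hfrac hB x ht hφ hf
  by_cases hn : 0 ≤ n
  · left
    obtain ⟨m, rfl⟩ := Int.eq_ofNat_of_zero_le hn
    rw [zpow_natCast]
    exact Subring.mul_mem _ hu.mem (Subring.pow_mem _ (algebraMap_mem_localRing φ _) _)
  · right
    push Not at hn
    obtain ⟨m, hm⟩ : ∃ m : ℕ, n = -(m : ℤ) := ⟨(-n).toNat, by omega⟩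
    rw [hm, zpow_neg, zpow_natCast, mul_inv, inv_inv]
    exact Subring.mul_mem _ (hu.inv_mem hinj) (Subring.pow_mem _ (algebraMap_mem_localRing φ _) _)

/-- The valuation subring of `F` attached to a point `φ` of the residue disc. -/
def valSubring : ValuationSubring F :=
  { localRing (F := F) φ with
    mem_or_inv_mem' := mem_or_inv_mem_localRing hinj hfrac hB x ht hφ }

theorem mem_valSubring {f : F} :
    f ∈ valSubring hinj hfrac hB x ht hφ ↔ f ∈ localRing (F := F) φ := Iff.rfl


theorem algebraMap_algebraMap (a : A) :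
    algebraMap B F (algebraMap A B a) = algebraMap K F (a : K) := by
  rw [← IsScalarTower.algebraMap_apply A B F, IsScalarTower.algebraMap_apply A K F]
  rfl

theorem algebraMap_mem_localRing' (φ : B →ₐ[A] A) (c : K) :
    algebraMap K F c ∈ localRing (F := F) φ := by
  by_cases hc : c ∈ A
  · have := algebraMap_mem_localRing (F := F) φ (algebraMap A B ⟨c, hc⟩)
    rwa [algebraMap_algebraMap] at this
  · have hc' : c⁻¹ ∈ A := (A.mem_or_inv_mem c).resolve_left hc
    have hc0 : c ≠ 0 := fun h => hc (h ▸ A.zero_mem)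
    refine ⟨1, algebraMap A B ⟨c⁻¹, hc'⟩, ?_, ?_⟩
    · rw [AlgHom.commutes]
      intro h
      have : ((⟨c⁻¹, hc'⟩ : A) : K) = 0 := by
        have := congrArg (fun z : A => (z : K)) h
        simpa using this
      exact inv_ne_zero hc0 this
    · rw [algebraMap_algebraMap, ← map_mul, map_one]
      simp only
      rw [mul_inv_cancel₀ hc0, map_one]

include hinj in
theorem inv_factor_notMem (hπ : algebraMap B F (factor x φ) ≠ 0) :
    (algebraMap B F (factor x φ))⁻¹ ∉ localRing (F := F) φ := by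
  intro h
  apply not_isLocUnit_factor_mul hinj x h
  rw [mul_inv_cancel₀ hπ]
  exact isLocUnit_one

include hinj ht hφ in
theorem algebraMap_factor_ne_zero : algebraMap B F (factor x φ) ≠ 0 := fun h0 =>
  factor_ne_zero x ht hφ (hinj (by rw [h0, map_zero]))

theorem valSubring_ne_top : valSubring hinj hfrac hB x ht hφ ≠ ⊤ := by
  intro h
  have h1 : (algebraMap B F (factor x φ))⁻¹ ∈ valSubring hinj hfrac hB x ht hφ := by
    rw [h]; exact ValuationSubring.mem_top _
  exact inv_factor_notMem hinj x (algebraMap_factor_ne_zero hinj x ht hφ) h1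

/-- the local factor as an element of the valuation ring -/
def unif : valSubring hinj hfrac hB x ht hφ :=
  ⟨algebraMap B F (factor x φ), algebraMap_mem_localRing φ _⟩

theorem isUnit_of_isLocUnit {u : F} (hu : IsLocUnit φ u) :
    IsUnit (⟨u, hu.mem⟩ : valSubring hinj hfrac hB x ht hφ) := by
  rw [isUnit_iff_exists_inv]
  refine ⟨⟨u⁻¹, hu.inv_mem hinj⟩, ?_⟩
  apply Subtype.ext
  show u * u⁻¹ = 1
  exact mul_inv_cancel₀ (hu.ne_zero hinj)

theorem isLocUnit_of_isUnit {u : valSubring hinj hfrac hB x ht hφ} (hu : IsUnit u) :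
    IsLocUnit φ (u : F) := by
  have hu0 : (u : F) ≠ 0 := by
    intro h
    have : u = 0 := Subtype.ext h
    rw [this] at hu
    exact not_isUnit_zero hu
  obtain ⟨n, w, hw, h⟩ := exists_locUnit_zpow hinj hfrac hB x ht hφ hu0
  have hπ := algebraMap_factor_ne_zero (F := F) hinj x ht hφ
  have hn : 0 ≤ n := exponent_nonneg hinj x hw (h ▸ u.2) hπ
  -- also the inverse lies in the local ring
  obtain ⟨v, hv⟩ := isUnit_iff_exists_inv.1 hu
  have hv' : (u : F) * (v : F) = 1 := congrArg Subtype.val hv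
  have hvinv : (v : F) = w⁻¹ * algebraMap B F (factor x φ) ^ (-n) := by
    have hw0 := hw.ne_zero hinj
    have : (v : F) = (u : F)⁻¹ :=
      eq_inv_of_mul_eq_one_left (by rw [mul_comm]; exact hv')
    rw [this, h, zpow_neg, mul_inv]
  have hn' : 0 ≤ -n := exponent_nonneg hinj x (hw.inv hinj) (hvinv ▸ v.2) hπ
  have hn0 : n = 0 := by omega
  rw [h, hn0, zpow_zero, mul_one]
  exact hw

theorem not_isUnit_unif : ¬ IsUnit (unif hinj hfrac hB x ht hφ) := by
  intro h
  have h1 := isLocUnit_of_isUnit hinj hfrac hB x ht hφ h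
  have h2 : IsLocUnit φ (algebraMap B F (factor x φ) * 1) := by
    rw [mul_one]; exact h1
  exact not_isLocUnit_factor_mul hinj x (Subring.one_mem _) h2

/-- every nonzero element of the valuation ring is a unit times a power of the uniformizer -/
theorem exists_unit_mul_pow {z : valSubring hinj hfrac hB x ht hφ} (hz : z ≠ 0) :
    ∃ (n : ℕ) (u : valSubring hinj hfrac hB x ht hφ), IsUnit u ∧
      z = u * unif hinj hfrac hB x ht hφ ^ n := by
  have hz0 : (z : F) ≠ 0 := fun h => hz (Subtype.ext h)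
  obtain ⟨n, w, hw, h⟩ := exists_locUnit_zpow hinj hfrac hB x ht hφ hz0
  have hπ := algebraMap_factor_ne_zero (F := F) hinj x ht hφ
  have hn : 0 ≤ n := exponent_nonneg hinj x hw (h ▸ z.2) hπ
  obtain ⟨m, rfl⟩ := Int.eq_ofNat_of_zero_le hn
  refine ⟨m, ⟨w, hw.mem⟩, isUnit_of_isLocUnit hinj hfrac hB x ht hφ hw, ?_⟩
  apply Subtype.ext
  rw [h, zpow_natCast]
  rfl

theorem irreducible_unif : Irreducible (unif hinj hfrac hB x ht hφ) := by
  have hnu := not_isUnit_unif hinj hfrac hB x ht hφ
  refine ⟨hnu, ?_⟩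
  intro a b hab
  have hπ0 : unif hinj hfrac hB x ht hφ ≠ 0 := by
    intro h
    exact algebraMap_factor_ne_zero (F := F) hinj x ht hφ (congrArg Subtype.val h)
  have ha0 : a ≠ 0 := by
    rintro rfl
    rw [zero_mul] at hab
    exact hπ0 hab
  have hb0 : b ≠ 0 := by
    rintro rfl
    rw [mul_zero] at hab
    exact hπ0 hab
  obtain ⟨i, u, hu, rfl⟩ := exists_unit_mul_pow hinj hfrac hB x ht hφ ha0
  obtain ⟨j, v, hv, rfl⟩ := exists_unit_mul_pow hinj hfrac hB x ht hφ hb0
  rcases Nat.eq_zero_or_pos i with rfl | hi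
  · left
    rw [pow_zero, mul_one]
    exact hu
  rcases Nat.eq_zero_or_pos j with rfl | hj
  · right
    rw [pow_zero, mul_one]
    exact hv
  exfalso
  -- π = (u v) π^(i+j) with i + j ≥ 2 forces π to be a unit times ... contradiction
  obtain ⟨i', rfl⟩ : ∃ i', i = i' + 1 := ⟨i - 1, by omega⟩
  obtain ⟨j', rfl⟩ : ∃ j', j = j' + 1 := ⟨j - 1, by omega⟩
  have h1 : unif hinj hfrac hB x ht hφ * 1 =
      unif hinj hfrac hB x ht hφ *
        (u * v * unif hinj hfrac hB x ht hφ ^ i' * unif hinj hfrac hB x ht hφ ^ (j' + 1)) := by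
    rw [mul_one]
    conv_lhs => rw [hab]
    ring
  have h2 := mul_left_cancel₀ hπ0 h1
  apply hnu
  have h3 : IsUnit (u * v * unif hinj hfrac hB x ht hφ ^ i' *
      unif hinj hfrac hB x ht hφ ^ (j' + 1)) := by
    rw [← h2]; exact isUnit_one
  have h4 : IsUnit (unif hinj hfrac hB x ht hφ ^ (j' + 1)) := isUnit_of_mul_isUnit_right h3
  exact (isUnit_pow_iff (Nat.succ_ne_zero j')).1 h4

theorem hasUnitMulPow : IsDiscreteValuationRing.HasUnitMulPowIrreducibleFactorization
    (valSubring hinj hfrac hB x ht hφ) := by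
  refine ⟨unif hinj hfrac hB x ht hφ, irreducible_unif hinj hfrac hB x ht hφ, ?_⟩
  intro z hz
  obtain ⟨n, u, hu, rfl⟩ := exists_unit_mul_pow hinj hfrac hB x ht hφ hz
  refine ⟨n, ?_⟩
  obtain ⟨u', rfl⟩ := hu
  exact ⟨u', by rw [mul_comm]⟩

/-- **The place of a point of the residue disc.** -/
def placeOf : Place K F where
  toValuationSubring := valSubring hinj hfrac hB x ht hφ
  algebraMap_mem' := fun c => algebraMap_mem_localRing' φ c
  ne_top' := valSubring_ne_top hinj hfrac hB x ht hφ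
  isPrincipalIdealRing' :=
    haveI := IsDiscreteValuationRing.ofHasUnitMulPowIrreducibleFactorization
      (hasUnitMulPow hinj hfrac hB x ht hφ)
    inferInstance

theorem placeOf_toValuationSubring :
    (placeOf hinj hfrac hB x ht hφ).toValuationSubring = valSubring hinj hfrac hB x ht hφ := rfl

theorem mem_placeOf {f : F} :
    f ∈ (placeOf hinj hfrac hB x ht hφ).toValuationSubring ↔
      ∃ b s : B, φ s ≠ 0 ∧ f * algebraMap B F s = algebraMap B F b := Iff.rfl

/-- the order of the local factor at its own place is `1` -/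
theorem ord_placeOf_factor :
    (placeOf hinj hfrac hB x ht hφ).ord (algebraMap B F (factor x φ)) = 1 :=
  (placeOf hinj hfrac hB x ht hφ).ord_coe_irreducible
    (π := unif hinj hfrac hB x ht hφ) (irreducible_unif hinj hfrac hB x ht hφ)

/-- the order of a function of the chart not vanishing at `φ` is `0` -/
theorem ord_placeOf_of_map_ne_zero {b : B} (hb : φ b ≠ 0) :
    (placeOf hinj hfrac hB x ht hφ).ord (algebraMap B F b) = 0 := by
  have hu := isUnit_of_isLocUnit hinj hfrac hB x ht hφ (isLocUnit_algebraMap (F := F) hb)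
  obtain ⟨u, hu'⟩ := hu
  have := (placeOf hinj hfrac hB x ht hφ).ord_coe_unit u
  rw [hu'] at this
  exact this


end PlaceOf



end Fermat.Agent.S37.H579.Glue
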