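import Fermat.Agent.S37.H579.GlueTube

/-!
# R-cd GLUE (helper579, row S37), part 3: membership in tubes, separation, the atlas
-/

set_option linter.unusedSectionVars false
set_option linter.style.haveILetI false
set_option autoImplicit false

noncomputable section

namespace Fermat.Agent.S37.H579.Glue

open AlgebraicCurve IsLocalRing Fermat.Agent.S37.H579.Arg Fermat.Agent.S37.H940
open Fermat.Agent.S24.FF

variable {K F k Fk : Type*} [Field K] [Field F] [Algebra K F] [Field k] [Field Fk]
  [Algebra k Fk]

section Values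

variable {C : Ctx K F k Fk} (D : ChartData C)

/-- The `A`-point of the chart defined by a place at which all functions of the chart have
values in `A`. -/
def pointOfValues (P : Place K F)
    (hval : ∀ b : D.B, ∃ a : C.A, InMax P ((b : F) - algebraMap K F (a : K))) :
    D.B →ₐ[C.A] C.A where
  toFun b := (hval b).choose
  map_one' := by
    have h1 := (hval 1).choose_spec
    have h2 : InMax P (((1 : D.B) : F) - algebraMap K F ((1 : C.A) : K)) := by
      simp only [OneMemClass.coe_one, map_one, sub_self]
      exact inMax_zero P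
    exact Subtype.ext (value_unique h1 h2)
  map_mul' := by
    intro b b'
    have h := (hval (b * b')).choose_spec
    have hb := (hval b).choose_spec
    have hb' := (hval b').choose_spec
    have h2 : InMax P (((b * b' : D.B) : F) -
        algebraMap K F (((hval b).choose * (hval b').choose : C.A) : K)) := by
      have e : ((b * b' : D.B) : F) -
          algebraMap K F (((hval b).choose * (hval b').choose : C.A) : K) =
          ((b : F) - algebraMap K F ((hval b).choose : K)) * (b' : F) +
            algebraMap K F ((hval b).choose : K) *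
              ((b' : F) - algebraMap K F ((hval b').choose : K)) := by
        have e1 : ((((hval b).choose * (hval b').choose : C.A)) : K) =
            ((hval b).choose : K) * ((hval b').choose : K) := rfl
        rw [e1, Subalgebra.coe_mul, map_mul]
        ring
      rw [e]
      exact (hb.mul_of_ord_nonneg (ord_nonneg_of_inMax_sub hb')).add (hb'.const_mul _)
    exact Subtype.ext (value_unique h h2)
  map_zero' := by
    have h1 := (hval 0).choose_spec
    have h2 : InMax P (((0 : D.B) : F) - algebraMap K F ((0 : C.A) : K)) := by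
      simp only [ZeroMemClass.coe_zero, map_zero, sub_self]
      exact inMax_zero P
    exact Subtype.ext (value_unique h1 h2)
  map_add' := by
    intro b b'
    have h := (hval (b + b')).choose_spec
    have hb := (hval b).choose_spec
    have hb' := (hval b').choose_spec
    have h2 : InMax P (((b + b' : D.B) : F) -
        algebraMap K F (((hval b).choose + (hval b').choose : C.A) : K)) := by
      have e : ((b + b' : D.B) : F) -
          algebraMap K F (((hval b).choose + (hval b').choose : C.A) : K) =
          ((b : F) - algebraMap K F ((hval b).choose : K)) +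
              ((b' : F) - algebraMap K F ((hval b').choose : K)) := by
        have e1 : ((((hval b).choose + (hval b').choose : C.A)) : K) =
            ((hval b).choose : K) + ((hval b').choose : K) := rfl
        rw [e1, Subalgebra.coe_add, map_add]
        ring
      rw [e]
      exact hb.add hb'
    exact Subtype.ext (value_unique h h2)
  commutes' := by
    intro a
    have h1 := (hval (algebraMap C.A D.B a)).choose_spec
    have h2 : InMax P (((algebraMap C.A D.B a : D.B) : F) - algebraMap K F (a : K)) := by
      have : ((algebraMap C.A D.B a : D.B) : F) = algebraMap K F (a : K) := rfl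
      rw [this, sub_self]
      exact inMax_zero P
    exact Subtype.ext (value_unique h1 h2)

theorem pointOfValues_spec (P : Place K F)
    (hval : ∀ b : D.B, ∃ a : C.A, InMax P ((b : F) - algebraMap K F (a : K))) (b : D.B) :
    InMax P ((b : F) - algebraMap K F ((pointOfValues D P hval b : C.A) : K)) :=
  (hval b).choose_spec

end Values

namespace PointData

section Member

variable [IsAlgClosed K]
variable {C : Ctx K F k Fk} {D : ChartData C} {Q : Place k Fk} (X : PointData D Q)

/-- a point of the chart whose reduction is the point `Q` lies in the residue disc of `Q` -/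
theorem mem_disc_of_values (φ : D.B →ₐ[C.A] C.A)
    (h : ∀ b : D.B, InMax Q (D.red b - algebraMap k Fk (C.π (φ b)))) : φ ∈ disc X.pt := by
  intro b hb
  have h1 : InMax Q (D.red b) := hb
  have h2 := h1.sub (h b)
  rw [sub_sub_cancel, inMax_algebraMap_iff, C.π_eq_zero] at h2
  exact (IsLocalRing.mem_maximalIdeal _).2 h2

/-- conversely the reduction of a point of the residue disc of `Q` is `Q` -/
theorem values_of_mem_disc {φ : D.B →ₐ[C.A] C.A} (hφ : φ ∈ disc X.pt) (b : D.B) :
    InMax Q (D.red b - algebraMap k Fk (C.π (φ b))) := by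
  have h1 : b - algebraMap C.A D.B (φ b) ∈ X.pt.N :=
    ker_le_of_mem_disc hφ (sub_algebraMap_mem_ker φ b)
  have h2 : InMax Q (D.red (b - algebraMap C.A D.B (φ b))) := h1
  rwa [map_sub, D.red_algebraMap] at h2

/-- **Membership in the tube.**  A place `P` of `F` at which every function `b` of the chart
has a value `a ∈ A`, such that `ρ b` has the value `π a` at `Q`, lies in the tube of `Q`. -/
theorem mem_tube_of_values (P : Place K F)
    (hval : ∀ b : D.B, ∃ a : C.A, InMax P ((b : F) - algebraMap K F (a : K)) ∧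
      InMax Q (D.red b - algebraMap k Fk (C.π a))) : P ∈ X.tube := by
  have hval' : ∀ b : D.B, ∃ a : C.A, InMax P ((b : F) - algebraMap K F (a : K)) :=
    fun b => ⟨(hval b).choose, (hval b).choose_spec.1⟩
  set φ := pointOfValues D P hval' with hφdef
  have hφP : ∀ b : D.B, InMax P ((b : F) - algebraMap K F ((φ b : C.A) : K)) :=
    pointOfValues_spec D P hval'
  have hφQ : ∀ b : D.B, InMax Q (D.red b - algebraMap k Fk (C.π (φ b))) := by
    intro b
    obtain ⟨a, ha1, ha2⟩ := hval b
    have : φ b = a := Subtype.ext (value_unique (hφP b) ha1)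
    rw [this]
    exact ha2
  have hφ : φ ∈ disc X.pt := X.mem_disc_of_values φ hφQ
  refine ⟨φ, hφ, ?_⟩
  symm
  apply Fermat.Agent.Lib.RR.place_eq_of_le
  intro f hf
  obtain ⟨b, s, hs, h⟩ := (X.mem_placeAt hφ).1 hf
  have hsK : ((φ s : C.A) : K) ≠ 0 := fun h0 => hs (Subtype.ext h0)
  have hs0 : (s : F) ≠ 0 := by
    intro h0
    apply hs
    have : s = 0 := Subtype.ext h0
    rw [this, map_zero]
  have hsord : P.ord (s : F) = 0 := ord_eq_zero_of_inMax_sub (hφP s) hsK
  have hbord : 0 ≤ P.ord (b : F) := ord_nonneg_of_inMax_sub (hφP b)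
  apply mem_of_ord_nonneg
  by_cases hf0 : f = 0
  · rw [hf0, Place.ord_zero]
  have h1 := congrArg P.ord h
  rw [P.ord_mul hf0 hs0, hsord, add_zero] at h1
  rw [h1]
  exact hbord

/-- the value at a place of the tube is given by the point -/
theorem exists_point_of_mem_tube {P : Place K F} (hP : P ∈ X.tube) :
    ∃ φ : D.B →ₐ[C.A] C.A, φ ∈ disc X.pt ∧
      ∀ b : D.B, InMax P ((b : F) - algebraMap K F ((φ b : C.A) : K)) := by
  obtain ⟨φ, hφ, rfl⟩ := hP
  exact ⟨φ, hφ, X.value_placeAt hφ⟩

include X in
/-- **Separation.**  If every value of a function of the chart at `Q` is also its value at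
`Q'`, then `Q = Q'` (normality of the special fibre at `Q`). -/
theorem eq_of_values (Q' : Place k Fk)
    (h : ∀ (b : D.B) (c : k), InMax Q (D.red b - algebraMap k Fk c) →
      InMax Q' (D.red b - algebraMap k Fk c)) : Q = Q' := by
  apply Fermat.Agent.Lib.RR.place_eq_of_le
  intro f hf
  by_cases hf0 : f = 0
  · rw [hf0]; exact zero_mem _
  have hreg' : ∀ b : D.B, 0 ≤ Q'.ord (D.red b) := by
    intro b
    obtain ⟨c, hc⟩ := X.res (D.red b) (X.reg b)
    exact ord_nonneg_of_inMax_sub (h b c hc)
  have hn : 0 ≤ Q.ord f := ord_nonneg_of_mem Q hf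
  obtain ⟨n, hn'⟩ := Int.eq_ofNat_of_zero_le hn
  have ht0 := X.red_t_ne_zero
  have hg0 : f * (D.red X.t ^ n)⁻¹ ≠ 0 := mul_ne_zero hf0 (inv_ne_zero (pow_ne_zero _ ht0))
  have hord : Q.ord (f * (D.red X.t ^ n)⁻¹) = 0 := by
    rw [Q.ord_mul hf0 (inv_ne_zero (pow_ne_zero _ ht0)), Q.ord_inv, ← zpow_natCast,
      Q.ord_zpow, X.ht, hn']
    ring
  obtain ⟨b, s, hs0, hs, hbs⟩ := X.gen _ hg0 hord
  -- `s` has a nonzero value at `Q`, hence at `Q'`
  obtain ⟨c, hc⟩ := X.res (D.red s) (X.reg s)
  have hc0 : c ≠ 0 := by
    rintro rfl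
    rw [map_zero, sub_zero] at hc
    exact not_inMax_of_ord_eq_zero hs0 hs hc
  have hs' : Q'.ord (D.red s) = 0 := ord_eq_zero_of_inMax_sub (h s c hc) hc0
  -- f * red s = red (b * t ^ n)
  have e : f * D.red s = D.red (b * X.t ^ n) := by
    rw [map_mul, map_pow, ← hbs]
    field_simp
  apply mem_of_ord_nonneg
  have h1 := congrArg Q'.ord e
  rw [Q'.ord_mul hf0 hs0, hs', add_zero] at h1
  rw [h1]
  exact hreg' _

end Member

end PointData

section Disjoint

variable [IsAlgClosed K]
variable {C : Ctx K F k Fk}

/-- two points of the special fibre on the same chart with a common place in their tubes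
coincide -/
theorem tube_disjoint_same_chart {D : ChartData C} {Q Q' : Place k Fk} (X : PointData D Q)
    (X' : PointData D Q') {P : Place K F} (hP : P ∈ X.tube) (hP' : P ∈ X'.tube) : Q = Q' := by
  obtain ⟨φ, hφ, hφP⟩ := X.exists_point_of_mem_tube hP
  obtain ⟨φ', hφ', hφP'⟩ := X'.exists_point_of_mem_tube hP'
  have heq : φ = φ' := by
    apply AlgHom.ext
    intro b
    exact Subtype.ext (value_unique (hφP b) (hφP' b))
  subst heq
  apply X.eq_of_values Q'
  intro b c hc
  have h1 := X.values_of_mem_disc hφ b
  have h2 := X'.values_of_mem_disc hφ' b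
  rw [value_unique hc h1]
  exact h2

/-- the tubes of points on two charts `x₀ x₁ = 1` with `x₁(Q') = 0` are disjoint -/
theorem tube_disjoint_charts {D₀ D₁ : ChartData C} {Q Q' : Place k Fk} (X₀ : PointData D₀ Q)
    (X₁ : PointData D₁ Q') (x₀ : D₀.B) (x₁ : D₁.B) (hx : (x₀ : F) * (x₁ : F) = 1)
    (hx₁ : InMax Q' (D₁.red x₁)) {P : Place K F} (hP : P ∈ X₀.tube) (hP' : P ∈ X₁.tube) :
    False := by
  obtain ⟨φ, hφ, hφP⟩ := X₀.exists_point_of_mem_tube hP
  obtain ⟨φ', hφ', hφP'⟩ := X₁.exists_point_of_mem_tube hP'
  have h0 := hφP x₀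
  have h1 := hφP' x₁
  have ha₁ : φ' x₁ ∈ maximalIdeal C.A := hφ' x₁ hx₁
  -- the value of `x₀ x₁ = 1` is `φ x₀ * φ' x₁`
  have h2 : InMax P ((1 : F) - algebraMap K F (((φ x₀ * φ' x₁ : C.A)) : K)) := by
    have e : (1 : F) - algebraMap K F (((φ x₀ * φ' x₁ : C.A)) : K) =
        ((x₀ : F) - algebraMap K F ((φ x₀ : C.A) : K)) * (x₁ : F) +
          algebraMap K F ((φ x₀ : C.A) : K) * ((x₁ : F) - algebraMap K F ((φ' x₁ : C.A) : K)) := by
      have e1 : (((φ x₀ * φ' x₁ : C.A)) : K) = ((φ x₀ : C.A) : K) * ((φ' x₁ : C.A) : K) := rfl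
      rw [e1, map_mul, ← hx]
      ring
    rw [e]
    exact (h0.mul_of_ord_nonneg (ord_nonneg_of_inMax_sub h1)).add (h1.const_mul _)
  have h3 : InMax P ((1 : F) - algebraMap K F (1 : K)) := by
    rw [map_one, sub_self]; exact inMax_zero P
  have h4 : (((φ x₀ * φ' x₁ : C.A)) : K) = 1 := value_unique h2 h3
  have h5 : φ x₀ * φ' x₁ = 1 := Subtype.ext h4
  have h6 : IsUnit (φ' x₁) := IsUnit.of_mul_eq_one (φ x₀) (by rw [mul_comm]; exact h5)
  exact (IsLocalRing.mem_maximalIdeal _).1 ha₁ h6

end Disjoint

end Fermat.Agent.S37.H579.Glue
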