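import Fermat.Agent.S37.H579.GluePlace
import Fermat.Agent.S37.H940.Assembly
import Fermat.Agent.Lib.RR.Approx

/-!
# R-cd GLUE (helper579, row S37), part 2: the tube of a point of the special fibre

Context `C : H940.Ctx K F k Fk` (helper940): `A ⊂ K` valuation ring, `π : A → k`, Gauss ring
`V ⊂ F`, reduction `ρ : V → F_k`.

* `ChartData C` : a chart `B ⊂ V` (an `A`-subalgebra of `F`) satisfying the ARG hypotheses
  `Chart A B`, with `ker (ρ|B) = 𝔪B`, `Frac B = F`, `V = B` localised at `B ∖ 𝔪B`.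
* `PointData D Q` : a place `Q` of `F_k` lying on the chart: `ρ(B) ⊂ O_Q`, residue field `k`,
  a lifted uniformizer `t ∈ B`, and `O_Q^× ⊂ ρ(B)_{𝔫}` (normality of the special fibre at `Q`).
* `PointData.pt` : the ARG point `Pt A B` of `Q`; `tube` : the set of places `placeOf φ`,
  `φ` in the residue disc of `Q`.
* `PointData.fibre` : helper940's `Fibre C` with `𝔊 = {Q}`, `𝔉 = tube`; in particular
  conservation of zeros `∑ᶠ P ∈ tube, ord_P u = ord_Q (ρ u)`.
-/

set_option linter.unusedSectionVars false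
set_option linter.style.haveILetI false
set_option autoImplicit false

noncomputable section

namespace Fermat.Agent.S37.H579.Glue

open AlgebraicCurve IsLocalRing Fermat.Agent.S37.H579.Arg Fermat.Agent.S37.H940
open Fermat.Agent.S24.FF

variable {K F k Fk : Type*} [Field K] [Field F] [Algebra K F] [Field k] [Field Fk]
  [Algebra k Fk]

/-- A chart of the model: an `A`-subalgebra `B ⊂ V ⊂ F`. -/
structure ChartData (C : Ctx K F k Fk) where
  /-- the chart algebra -/
  B : Subalgebra C.A F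
  le : ∀ b ∈ B, b ∈ C.V
  chart : Chart C.A B
  qep : ∀ b : B, C.ρ ⟨(b : F), le b b.2⟩ = 0 → b ∈ mB C.A B
  frac : ∀ f : F, ∃ b₁ b₂ : B, b₂ ≠ 0 ∧ f * (b₂ : F) = (b₁ : F)
  loc : ∀ u : C.V, ∃ b₁ b₂ : B, C.ρ ⟨(b₂ : F), le b₂ b₂.2⟩ ≠ 0 ∧ (u : F) * (b₂ : F) = (b₁ : F)

namespace ChartData

variable {C : Ctx K F k Fk} (D : ChartData C)

/-- the inclusion `B → V` -/
def toV : D.B →+* C.V where
  toFun b := ⟨(b : F), D.le b b.2⟩
  map_one' := rfl
  map_mul' _ _ := rfl
  map_zero' := rfl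
  map_add' _ _ := rfl

@[simp] theorem coe_toV (b : D.B) : ((D.toV b : C.V) : F) = (b : F) := rfl

/-- the reduction map on the chart -/
def red : D.B →+* Fk := C.ρ.comp D.toV

theorem red_apply (b : D.B) : D.red b = C.ρ (D.toV b) := rfl

theorem red_algebraMap (a : C.A) : D.red (algebraMap C.A D.B a) = algebraMap k Fk (C.π a) := by
  rw [red_apply, ← C.ρ_A a]
  rfl

theorem red_eq_zero_iff (b : D.B) : D.red b = 0 ↔ b ∈ mB C.A D.B := by
  constructor
  · exact D.qep b
  · intro h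
    have hle : mB C.A D.B ≤ RingHom.ker D.red := by
      rw [mB, Ideal.map_le_iff_le_comap]
      intro a ha
      rw [Ideal.mem_comap, RingHom.mem_ker, red_algebraMap]
      have : C.π a = 0 := by
        rw [C.π_eq_zero]
        exact (IsLocalRing.mem_maximalIdeal a).1 ha
      rw [this, map_zero]
    exact hle h

theorem algebraMap_eq_coe (b : D.B) : algebraMap D.B F b = (b : F) := rfl

theorem algebraMap_injective : Function.Injective (algebraMap D.B F) :=
  Subtype.coe_injective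

theorem coe_ne_zero {z : D.B} (hz : z ≠ 0) : (z : F) ≠ 0 := fun h => hz (Subtype.ext h)

end ChartData

/-- A place `Q` of `F_k` lying on the chart `D`, at which the special fibre is normal. -/
structure PointData {C : Ctx K F k Fk} (D : ChartData C) (Q : Place k Fk) where
  reg : ∀ b : D.B, 0 ≤ Q.ord (D.red b)
  res : ∀ g : Fk, 0 ≤ Q.ord g → ∃ c : k, InMax Q (g - algebraMap k Fk c)
  /-- a lift of a uniformizer at `Q` -/
  t : D.B
  ht : Q.ord (D.red t) = 1
  gen : ∀ g : Fk, g ≠ 0 → Q.ord g = 0 →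
    ∃ b s : D.B, D.red s ≠ 0 ∧ Q.ord (D.red s) = 0 ∧ g * D.red s = D.red b

namespace PointData

variable {C : Ctx K F k Fk} {D : ChartData C} {Q : Place k Fk} (X : PointData D Q)

/-- the ideal of the point `Q` in the chart -/
def ideal : Ideal D.B where
  carrier := {b | InMax Q (D.red b)}
  add_mem' := by
    intro a b ha hb
    show InMax Q (D.red (a + b))
    rw [map_add]
    exact InMax.add ha hb
  zero_mem' := by
    show InMax Q (D.red 0)
    rw [map_zero]
    exact inMax_zero Q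
  smul_mem' := by
    intro c b hb
    show InMax Q (D.red (c • b))
    rw [smul_eq_mul, map_mul]
    exact InMax.ord_nonneg_mul (X.reg c) hb

theorem mem_ideal {b : D.B} : b ∈ X.ideal ↔ InMax Q (D.red b) := Iff.rfl

theorem notMem_ideal_iff {b : D.B} : b ∉ X.ideal ↔ D.red b ≠ 0 ∧ Q.ord (D.red b) = 0 := by
  rw [mem_ideal]
  constructor
  · intro h
    have h0 : D.red b ≠ 0 := fun h0 => h (Or.inl h0)
    refine ⟨h0, ?_⟩
    have h1 := X.reg b
    by_contra h2
    exact h (Or.inr (lt_of_le_of_ne h1 (Ne.symm h2)))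
  · rintro ⟨h0, h1⟩
    exact not_inMax_of_ord_eq_zero h0 h1

theorem ideal_isPrime : X.ideal.IsPrime := by
  refine ⟨?_, ?_⟩
  · rw [Ne, Ideal.eq_top_iff_one, mem_ideal, map_one]
    exact not_inMax_one Q
  · intro a b hab
    by_contra hcon
    push Not at hcon
    obtain ⟨ha, hb⟩ := hcon
    rw [notMem_ideal_iff] at ha hb
    have : ¬ InMax Q (D.red (a * b)) := by
      rw [map_mul]
      apply not_inMax_of_ord_eq_zero (mul_ne_zero ha.1 hb.1)
      rw [Q.ord_mul ha.1 hb.1, ha.2, hb.2, add_zero]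
    exact this hab

theorem red_t_ne_zero : D.red X.t ≠ 0 := by
  intro h
  have := X.ht
  rw [h, Place.ord_zero] at this
  exact zero_ne_one this

/-- the ARG point attached to `Q` -/
def pt : Pt C.A D.B where
  N := X.ideal
  t := X.t
  prime := X.ideal_isPrime
  mB_le := by
    intro b hb
    rw [mem_ideal, (D.red_eq_zero_iff b).2 hb]
    exact inMax_zero Q
  rational := by
    intro b
    obtain ⟨c, hc⟩ := X.res (D.red b) (X.reg b)
    obtain ⟨a, rfl⟩ := C.π_surj c
    refine ⟨a, ?_⟩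
    rw [mem_ideal, map_sub, D.red_algebraMap]
    exact hc
  t_mem := by
    rw [mem_ideal]
    exact inMax_of_ord_pos (by rw [X.ht]; exact one_pos)
  dvr := by
    intro y hy
    have hy0 : D.red y ≠ 0 := fun h => hy ((D.red_eq_zero_iff y).1 h)
    have hm : 0 ≤ Q.ord (D.red y) := X.reg y
    obtain ⟨m, hm'⟩ := Int.eq_ofNat_of_zero_le hm
    have ht0 := X.red_t_ne_zero
    have hg0 : D.red y * (D.red X.t ^ m)⁻¹ ≠ 0 := mul_ne_zero hy0 (inv_ne_zero (pow_ne_zero _ ht0))
    have hord : Q.ord (D.red y * (D.red X.t ^ m)⁻¹) = 0 := by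
      rw [Q.ord_mul hy0 (inv_ne_zero (pow_ne_zero _ ht0)), Q.ord_inv, ← zpow_natCast,
        Q.ord_zpow, X.ht, hm']
      ring
    obtain ⟨b, s, hs0, hs, h⟩ := X.gen _ hg0 hord
    have hb0 : D.red b ≠ 0 := by
      rw [← h]
      exact mul_ne_zero hg0 hs0
    have hb : Q.ord (D.red b) = 0 := by
      rw [← h, Q.ord_mul hg0 hs0, hord, hs, add_zero]
    refine ⟨m, s, b, ?_, ?_, ?_⟩
    · exact X.notMem_ideal_iff.2 ⟨hs0, hs⟩
    · exact X.notMem_ideal_iff.2 ⟨hb0, hb⟩
    · rw [← D.red_eq_zero_iff, map_sub, map_mul, map_mul, map_pow, ← h]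
      field_simp
      ring

@[simp] theorem pt_t : X.pt.t = X.t := rfl

theorem mem_pt_N {b : D.B} : b ∈ X.pt.N ↔ InMax Q (D.red b) := Iff.rfl

theorem t_notMem_mB : X.pt.t ∉ mB C.A D.B := fun h =>
  X.red_t_ne_zero ((D.red_eq_zero_iff _).2 h)

end PointData

namespace PointData

section Tube

variable [IsAlgClosed K]
variable {C : Ctx K F k Fk} {D : ChartData C} {Q : Place k Fk} (X : PointData D Q)

/-- the place of `F` attached to a point of the residue disc of `Q` -/
def placeAt (φ : D.B →ₐ[C.A] C.A) (hφ : φ ∈ disc X.pt) : Place K F :=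
  placeOf (F := F) D.algebraMap_injective D.frac D.chart X.pt X.t_notMem_mB hφ

theorem mem_placeAt {φ : D.B →ₐ[C.A] C.A} (hφ : φ ∈ disc X.pt) {f : F} :
    f ∈ (X.placeAt φ hφ).toValuationSubring ↔
      ∃ b s : D.B, φ s ≠ 0 ∧ f * (s : F) = (b : F) := Iff.rfl

theorem coe_mem_placeAt {φ : D.B →ₐ[C.A] C.A} (hφ : φ ∈ disc X.pt) (b : D.B) :
    (b : F) ∈ (X.placeAt φ hφ).toValuationSubring :=
  (X.mem_placeAt hφ).2 ⟨b, 1, by rw [map_one]; exact one_ne_zero, by simp⟩

theorem ord_placeAt_nonneg {φ : D.B →ₐ[C.A] C.A} (hφ : φ ∈ disc X.pt) (b : D.B) :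
    0 ≤ (X.placeAt φ hφ).ord (b : F) :=
  ord_nonneg_of_mem _ (X.coe_mem_placeAt hφ b)

theorem ord_placeAt_factor {φ : D.B →ₐ[C.A] C.A} (hφ : φ ∈ disc X.pt) :
    (X.placeAt φ hφ).ord ((factor X.pt φ : D.B) : F) = 1 :=
  ord_placeOf_factor (F := F) D.algebraMap_injective D.frac D.chart X.pt X.t_notMem_mB hφ

theorem ord_placeAt_of_map_ne_zero {φ : D.B →ₐ[C.A] C.A} (hφ : φ ∈ disc X.pt) {b : D.B}
    (hb : φ b ≠ 0) : (X.placeAt φ hφ).ord (b : F) = 0 :=
  ord_placeOf_of_map_ne_zero (F := F) D.algebraMap_injective D.frac D.chart X.pt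
    X.t_notMem_mB hφ hb

/-- a function of the chart vanishing at `φ` lies in the maximal ideal of the place of `φ` -/
theorem inMax_placeAt_of_map_eq_zero {φ : D.B →ₐ[C.A] C.A} (hφ : φ ∈ disc X.pt) {b : D.B}
    (hb : φ b = 0) : InMax (X.placeAt φ hφ) (b : F) := by
  by_cases hb0 : b = 0
  · rw [hb0]; exact inMax_zero _
  obtain ⟨d, g, hd, hdg⟩ := ker_point D.chart X.pt hφ hb
  change d * b = factor X.pt φ * g at hdg
  have hφd : φ d ≠ 0 := map_ne_zero_of_notMem hφ hd
  have hd0 : d ≠ 0 := fun h => hφd (by rw [h, map_zero])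
  have hg0 : g ≠ 0 := by
    rintro rfl
    rw [mul_zero] at hdg
    exact mul_ne_zero hd0 hb0 hdg
  have hfac0 : (factor X.pt φ : D.B) ≠ 0 := by
    intro h
    rw [h, zero_mul] at hdg
    exact mul_ne_zero hd0 hb0 hdg
  have hcoe : ∀ z : D.B, z ≠ 0 → (z : F) ≠ 0 := fun z hz h => hz (Subtype.ext h)
  have h1 : (d : F) * (b : F) = ((factor X.pt φ : D.B) : F) * (g : F) := by
    have := congrArg (fun z : D.B => (z : F)) hdg
    exact this
  have h2 := congrArg (X.placeAt φ hφ).ord h1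
  rw [Place.ord_mul _ (hcoe d hd0) (hcoe b hb0), Place.ord_mul _ (hcoe _ hfac0) (hcoe g hg0),
    X.ord_placeAt_of_map_ne_zero hφ hφd, X.ord_placeAt_factor hφ, zero_add] at h2
  have h3 := X.ord_placeAt_nonneg hφ g
  exact inMax_of_ord_pos (by omega)

/-- the value of a function of the chart at the place of `φ` is `φ b` -/
theorem value_placeAt {φ : D.B →ₐ[C.A] C.A} (hφ : φ ∈ disc X.pt) (b : D.B) :
    InMax (X.placeAt φ hφ) ((b : F) - algebraMap K F ((φ b : C.A) : K)) := by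
  have h := X.inMax_placeAt_of_map_eq_zero hφ (sub_algebraMap_mem_ker φ b)
  have e : ((b - algebraMap C.A D.B (φ b) : D.B) : F) =
      (b : F) - algebraMap K F ((φ b : C.A) : K) := by
    rw [Subalgebra.coe_sub]
    congr 1
  rw [e] at h
  exact h

theorem placeAt_injective {φ φ' : D.B →ₐ[C.A] C.A} (hφ : φ ∈ disc X.pt) (hφ' : φ' ∈ disc X.pt)
    (h : X.placeAt φ hφ = X.placeAt φ' hφ') : φ = φ' := by
  apply AlgHom.ext
  intro b
  have h1 := X.value_placeAt hφ b
  have h2 := X.value_placeAt hφ' b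
  rw [← h] at h2
  exact Subtype.ext (value_unique h1 h2)

/-- the tube of `Q`: the places of the points of the residue disc of `Q` -/
def tube : Set (Place K F) := {P | ∃ φ, ∃ hφ : φ ∈ disc X.pt, P = X.placeAt φ hφ}

theorem exists_mem_disc : ∃ φ : D.B →ₐ[C.A] C.A, φ ∈ disc X.pt := by
  obtain ⟨φ, hφ, -⟩ := exists_point_t_eq K D.chart X.pt X.t_notMem_mB
    (a := 0) (Ideal.zero_mem _)
  exact ⟨φ, hφ⟩

/-- a base point of the residue disc -/
def basePt : D.B →ₐ[C.A] C.A := X.exists_mem_disc.choose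

theorem basePt_mem : X.basePt ∈ disc X.pt := X.exists_mem_disc.choose_spec

open Classical in
/-- the place of a point, extended by a junk value outside the residue disc -/
def placeFn (φ : D.B →ₐ[C.A] C.A) : Place K F :=
  if h : φ ∈ disc X.pt then X.placeAt φ h else X.placeAt X.basePt X.basePt_mem

theorem placeFn_of_mem {φ : D.B →ₐ[C.A] C.A} (hφ : φ ∈ disc X.pt) :
    X.placeFn φ = X.placeAt φ hφ := by
  unfold placeFn
  rw [dif_pos hφ]

theorem tube_eq_image : X.tube = X.placeFn '' (disc X.pt) := by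
  ext P
  constructor
  · rintro ⟨φ, hφ, rfl⟩
    exact ⟨φ, hφ, X.placeFn_of_mem hφ⟩
  · rintro ⟨φ, hφ, rfl⟩
    exact ⟨φ, hφ, X.placeFn_of_mem hφ⟩

theorem placeFn_injOn : Set.InjOn X.placeFn (disc X.pt) := by
  intro φ hφ φ' hφ' h
  rw [X.placeFn_of_mem hφ, X.placeFn_of_mem hφ'] at h
  exact X.placeAt_injective hφ hφ' h

/-- the order of the reduction at `Q` is the ARG order -/
theorem ord_red_eq {y : D.B} {m : ℕ} {s g : D.B} (hs : s ∉ X.pt.N) (hg : g ∉ X.pt.N)
    (h : s * y - X.pt.t ^ m * g ∈ mB C.A D.B) (hy : D.red y ≠ 0) :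
    Q.ord (D.red y) = m := by
  have hs' := X.notMem_ideal_iff.1 hs
  have hg' := X.notMem_ideal_iff.1 hg
  have h1 : D.red s * D.red y = D.red X.t ^ m * D.red g := by
    have := (D.red_eq_zero_iff _).2 h
    rw [map_sub, map_mul, map_mul, map_pow, sub_eq_zero] at this
    exact this
  have h2 := congrArg Q.ord h1
  rw [Q.ord_mul hs'.1 hy, Q.ord_mul (pow_ne_zero _ X.red_t_ne_zero) hg'.1, hs'.2, hg'.2,
    ← zpow_natCast, Q.ord_zpow, X.ht] at h2
  omega

/-- **Conservation of zeros for functions of the chart.** -/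
theorem finsum_tube_chart {y : D.B} (hy : D.red y ≠ 0) :
    ∑ᶠ P ∈ X.tube, P.ord (y : F) = Q.ord (D.red y) := by
  have hymB : y ∉ mB C.A D.B := fun h => hy ((D.red_eq_zero_iff y).2 h)
  obtain ⟨m, s, g, hs, hg, hrel⟩ := X.pt.dvr y hymB
  have hm := X.ord_red_eq hs hg hrel hy
  obtain ⟨Z, hZ, hsum⟩ := sum_ord_eq (fun φ b => (X.placeFn φ).ord ((b : D.B) : F)) K D.chart X.pt
    (fun φ hφ f g hf hg => by
      show (X.placeFn φ).ord ((f : F) * (g : F)) = _
      exact Place.ord_mul _ (D.coe_ne_zero hf) (D.coe_ne_zero hg))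
    (fun φ hφ f hf => by
      show (X.placeFn φ).ord (f : F) = 0
      rw [X.placeFn_of_mem hφ]
      exact X.ord_placeAt_of_map_ne_zero hφ hf)
    (fun φ hφ => by
      show (X.placeFn φ).ord ((factor X.pt φ : D.B) : F) = 1
      rw [X.placeFn_of_mem hφ]
      exact X.ord_placeAt_factor hφ)
    hymB hs hg hrel
  rw [hm, ← hsum, X.tube_eq_image, finsum_mem_image X.placeFn_injOn]
  apply finsum_mem_eq_sum_of_inter_support_eq
  ext φ
  simp only [Set.mem_inter_iff, Function.mem_support, ne_eq, Finset.mem_coe]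
  constructor
  · rintro ⟨hφ, hne⟩
    refine ⟨(hZ φ).2 ⟨hφ, ?_⟩, hne⟩
    by_contra h0
    apply hne
    rw [X.placeFn_of_mem hφ]
    exact X.ord_placeAt_of_map_ne_zero hφ h0
  · rintro ⟨hφ, hne⟩
    exact ⟨((hZ φ).1 hφ).1, hne⟩

/-- the zeros on the tube of a function of the chart with nonzero reduction are finite -/
theorem finite_tube_chart {y : D.B} (hy : D.red y ≠ 0) :
    {P | P ∈ X.tube ∧ P.ord (y : F) ≠ 0}.Finite := by
  have hymB : y ∉ mB C.A D.B := fun h => hy ((D.red_eq_zero_iff y).2 h)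
  obtain ⟨as, s, g, has, hs, hg, hfac, -⟩ := factorization K D.chart X.pt hymB
  classical
  refine (as.toFinset.image X.placeFn).finite_toSet.subset ?_
  rintro P ⟨⟨φ, hφ, rfl⟩, hne⟩
  rw [Finset.coe_image]
  refine ⟨φ, ?_, X.placeFn_of_mem hφ⟩
  rw [Finset.mem_coe, Multiset.mem_toFinset,
    ← zero_iff_mem_of_factorization D.chart X.pt has hs hg hfac hφ]
  by_contra h0
  exact hne (X.ord_placeAt_of_map_ne_zero hφ h0)


/-- the zeros and poles on the tube of a nonzero function are finite -/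
theorem finite_tube {u : F} (hu : u ≠ 0) : {P | P ∈ X.tube ∧ P.ord u ≠ 0}.Finite := by
  obtain ⟨b₁, b₂, hb₂, h⟩ := D.frac u
  have hb₂' : (b₂ : F) ≠ 0 := D.coe_ne_zero hb₂
  have hb₁ : b₁ ≠ 0 := by
    rintro rfl
    rw [ZeroMemClass.coe_zero] at h
    rcases mul_eq_zero.1 h with h1 | h1
    · exact hu h1
    · exact hb₂' h1
  -- content decomposition
  have key : ∀ b : D.B, b ≠ 0 → {P | P ∈ X.tube ∧ P.ord (b : F) ≠ 0}.Finite := by
    intro b hb
    obtain ⟨c, hc, b', hb', rfl⟩ := D.chart.content b hb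
    have hred : D.red b' ≠ 0 := fun h0 => hb' ((D.red_eq_zero_iff b').1 h0)
    refine (X.finite_tube_chart hred).subset ?_
    rintro P ⟨hP, hne⟩
    refine ⟨hP, ?_⟩
    have hcK : ((c : C.A) : K) ≠ 0 := fun h0 => hc (Subtype.ext h0)
    have e : ((c • b' : D.B) : F) = algebraMap K F (c : K) * (b' : F) := by
      rw [Algebra.smul_def, Subalgebra.coe_mul]
      rfl
    rw [e, ord_const_mul P hcK] at hne
    exact hne
  refine ((key b₁ hb₁).union (key b₂ hb₂)).subset ?_
  rintro P ⟨hP, hne⟩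
  by_contra hcon
  rw [Set.mem_union, not_or] at hcon
  have h1 : P.ord (b₁ : F) = 0 := by
    by_contra h0
    exact hcon.1 ⟨hP, h0⟩
  have h2 : P.ord (b₂ : F) = 0 := by
    by_contra h0
    exact hcon.2 ⟨hP, h0⟩
  have h3 := congrArg P.ord h
  rw [P.ord_mul hu hb₂', h1, h2, add_zero] at h3
  exact hne h3

/-- **Conservation of zeros on the tube of `Q`.** -/
theorem finsum_tube (u : C.V) (hu : C.ρ u ≠ 0) :
    ∑ᶠ P ∈ X.tube, P.ord (u : F) = Q.ord (C.ρ u) := by
  obtain ⟨b₁, b₂, hb₂, h⟩ := D.loc u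
  have hb₂' : D.red b₂ ≠ 0 := hb₂
  have hV : u * D.toV b₂ = D.toV b₁ := Subtype.ext h
  have hred : C.ρ u * D.red b₂ = D.red b₁ := by
    rw [ChartData.red_apply, ChartData.red_apply, ← map_mul, hV]
  have hb₁' : D.red b₁ ≠ 0 := by
    rw [← hred]
    exact mul_ne_zero hu hb₂'
  have hu0 : (u : F) ≠ 0 := C.ne_zero_of_ρ_ne_zero hu
  have hb₂0 : (b₂ : F) ≠ 0 := by
    intro h0
    apply hb₂'
    have : b₂ = 0 := Subtype.ext h0
    rw [this, map_zero]
  have hfin_u : (X.tube ∩ Function.support fun P : Place K F => P.ord (u : F)).Finite :=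
    (X.finite_tube hu0).subset (fun P hP => ⟨hP.1, hP.2⟩)
  have hfin_2 : (X.tube ∩ Function.support fun P : Place K F => P.ord (b₂ : F)).Finite :=
    (X.finite_tube hb₂0).subset (fun P hP => ⟨hP.1, hP.2⟩)
  have h1 : ∑ᶠ P ∈ X.tube, P.ord (b₁ : F) =
      ∑ᶠ P ∈ X.tube, (P.ord (u : F) + P.ord (b₂ : F)) := by
    apply finsum_mem_congr rfl
    intro P _
    rw [← h, P.ord_mul hu0 hb₂0]
  rw [finsum_mem_add_distrib' hfin_u hfin_2, X.finsum_tube_chart hb₁',
    X.finsum_tube_chart hb₂', ← hred, Q.ord_mul hu hb₂'] at h1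
  omega

/-- residues at the places of the tube lie in `K` -/
theorem res_tube {P : Place K F} (hP : P ∈ X.tube) {f : F} (hf : 0 ≤ P.ord f) :
    ∃ c : K, InMax P (f - algebraMap K F c) := by
  obtain ⟨φ, hφ, rfl⟩ := hP
  obtain ⟨b, s, hs, h⟩ := (X.mem_placeAt hφ).1 (mem_of_ord_nonneg _ hf)
  have hsK : ((φ s : C.A) : K) ≠ 0 := fun h0 => hs (Subtype.ext h0)
  refine ⟨((φ b : C.A) : K) / ((φ s : C.A) : K), ?_⟩
  have hb := X.value_placeAt hφ b
  have hs' := X.value_placeAt hφ s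
  have hs0 : (s : F) ≠ 0 := by
    intro h0
    apply hs
    have : s = 0 := Subtype.ext h0
    rw [this, map_zero]
  have hsord : (X.placeAt φ hφ).ord (s : F) = 0 := X.ord_placeAt_of_map_ne_zero hφ hs
  -- (f - c) * s = (b - φ b) - c * (s - φ s)
  have e : (f - algebraMap K F (((φ b : C.A) : K) / ((φ s : C.A) : K))) =
      (((b : F) - algebraMap K F ((φ b : C.A) : K)) -
        algebraMap K F (((φ b : C.A) : K) / ((φ s : C.A) : K)) *
          ((s : F) - algebraMap K F ((φ s : C.A) : K))) * (s : F)⁻¹ := by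
    have hsF : algebraMap K F ((φ s : C.A) : K) ≠ 0 := by
      rwa [Ne, map_eq_zero_iff _ (algebraMap K F).injective]
    rw [map_div₀, ← h]
    field_simp
    ring
  rw [e]
  refine InMax.mul_of_ord_nonneg (hb.sub (hs'.const_mul _)) ?_
  rw [Place.ord_inv, hsord, neg_zero]

/-- helper940's fibre over the single point `Q`. -/
def fibre : Fibre C where
  𝔉 := X.tube
  𝔊 := {Q}
  ne := Finset.singleton_nonempty Q
  res := fun P hP f hf => X.res_tube hP hf
  fin := fun u hu => X.finite_tube hu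
  FC := fun u hu => by
    rw [Finset.sum_singleton]
    exact X.finsum_tube u hu
  LP := fun Q' hQ' => by
    rw [Finset.mem_singleton] at hQ'
    subst hQ'
    refine ⟨D.toV X.t, ?_, X.ht, ?_⟩
    · rintro P ⟨φ, hφ, rfl⟩
      exact X.ord_placeAt_nonneg hφ X.t
    · intro Q'' hQ'' hne
      rw [Finset.mem_singleton] at hQ''
      exact absurd hQ'' hne
  SEP := ⟨1, fun P _ => by simp, fun Q₁ h₁ Q₂ h₂ _ _ _ => by
    rw [Finset.mem_singleton] at h₁ h₂
    rw [h₁, h₂]⟩

@[simp] theorem fibre_𝔉 : X.fibre.𝔉 = X.tube := rfl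

@[simp] theorem fibre_𝔊 : X.fibre.𝔊 = {Q} := rfl


end Tube

end PointData

end Fermat.Agent.S37.H579.Glue
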